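import Fermat.Agent.Ribet.H158.WallQPow

/-!
# Row 37, WALL-q at GOOD LEVELS: official leaves with the hypothesis `GoodLevel M' q`
  (wall architect helper158; ADDITIVE; gap found by helper384)

The reduction infrastructure of rows S18 / S37 / A2 (`ReductionInputsModL`, GR-SURJ, node charts)
exists at the levels `M'` with `S37.Core.GoodLevel M' q`: `5 ≤ q`, or `q = 3 ∧ 2 ∣ M'`
(`q ≠ 2` here).  So the leaves are frozen HERE with that extra hypothesis; the remaining case
(`q = 3`, `M'` odd) of the wall is VACUOUS for the Frey curve (`E[p]` is ramified at `2`, but an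
embedding in `J₀(odd)` is unramified at `2`): piece EVEN / RAM2 of helper384.

All hypotheses are bundled in `WallQHyp p n q M'`.  Torsion order `p ^ n` (`n = 1`: the wall
modulo `p`).

## Leaves (prove ONE of the two forms; `…_of_all` below turns the all-levels form into this one)
| leaf | Prop |
|---|---|
| FROB-AL  | `Q2GoodStatement`          |
| RED      | `Q3GoodStatement` (mod `p`)  or  `RedMapGoodStatement` (`p ^ n`) |
| CORE-OUT | `CoreOutQGoodStatement`    |
| CUSP     | `CuspPurityQGoodStatement` |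

## Proved here
* `isEisModQ_of_slopePropQM'` (instance-level EIS-q core), `eisSlopeQGood_of`;
* `wallQTargetsGood_of`, `wallQTargetsGood_of_redMap`;
* `wallQFreyGood_of_targets : Places → DetFrob → TorsionRank → WallQTargetsGood → WallQFreyGood`;
* `wallQFrey_of_good : WallQFreyGood → OddVacuous → WallQFreyStatement`;
* `q2Good_of_all`, `redMapGood_of_all`, `q3Good_of_all`, `coreOutQGood_of_all`,
  `cuspPurityQGood_of_all`.
-/

set_option autoImplicit false
set_option synthInstance.maxHeartbeats 400000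
set_option maxHeartbeats 1000000
set_option linter.unusedSectionVars false
set_option linter.style.haveILetI false

noncomputable section

open WeierstrassCurve WeierstrassCurve.Affine WeierstrassCurve.Affine.Point

namespace Fermat.Agent.Ribet.H158.WallQ

open AlgebraicCurve ModularCurve HahnSeries
open Fermat.Agent.S24 Fermat.Agent.A2.H708 Fermat.Agent.A2.H528 Fermat.Agent.A2.H129
open Fermat.Agent.Ribet Fermat.Agent.Ribet.Spec Fermat.Agent.Ribet.H944.Wall
open Fermat.Agent.Ribet.H884 Fermat.Agent.S37.H400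

/-- **Standing hypotheses of the wall at `q`, good levels**: `p ≥ 5` prime, `n ≥ 1`, `q` an odd
prime `≠ p`, `q ∤ M'`, and `M'` is a good level for `q` (`p ∣ M'` is allowed). -/
structure WallQHyp (p n q M' : ℕ) : Prop where
  p_prime : p.Prime
  five_le : 5 ≤ p
  n_pos : 0 < n
  q_prime : q.Prime
  q_ne_two : q ≠ 2
  q_ne_p : q ≠ p
  not_dvd : ¬ q ∣ M'
  good : 5 ≤ q ∨ (q = 3 ∧ 2 ∣ M')

/-! ## Leaves at good levels -/

/-- **(Q2) FROB-AL**, good levels, torsion order `p ^ n`. -/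
def Q2GoodStatement : Prop :=
  ∀ (p n q M' : ℕ) [NeZero M'] [NeZero q] [NeZero (q * M')], WallQHyp p n q M' →
    ∀ A : ValuationSubring Kbar, A.LiesOverPrime q →
      Q2For (p ^ n) q M' A (splitPartQ (p ^ n) q M' A)

/-- **RED-MAP**, good levels, torsion order `p ^ n`. -/
def RedMapGoodStatement : Prop :=
  ∀ (p n q M' : ℕ) [NeZero M'] [NeZero q] [NeZero (q * M')], WallQHyp p n q M' →
    ∀ A : ValuationSubring Kbar, A.LiesOverPrime q →
      ∃ (S₀ : Finset ℕ) (β : finPartQ (p ^ n) q M' A →+ JZero M' × JZero M'),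
        RedMapFor q M' S₀ (finPartQ (p ^ n) q M' A) (splitPartQ (p ^ n) q M' A) β

/-- **(Q3) RED**, good levels, modulo `p`. -/
def Q3GoodStatement : Prop :=
  ∀ (p q M' : ℕ) [NeZero M'] [NeZero q] [NeZero (q * M')], WallQHyp p 1 q M' →
    ∀ A : ValuationSubring Kbar, A.LiesOverPrime q →
      Q3For p q M' (finPartQ p q M' A) (splitPartQ p q M' A)

/-- **CORE-OUT-q** (tame node relation), good levels, torsion order `p ^ n`. -/
def CoreOutQGoodStatement : Prop :=
  ∀ (p n q M' : ℕ) [NeZero M'] [NeZero q] [NeZero (q * M')], WallQHyp p n q M' →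
    ∀ A : ValuationSubring Kbar, A.LiesOverPrime q →
    ∀ (S : Finset ℕ) (a : ℕ → ℤ) (x : JZero (q * M')),
      IsNewTorsQ (p ^ n) q M' x → EigenAt (q * M') S a x →
      (∀ σ ∈ A.inertiaSubgroupIn ℚ, σ • x = x) →
      SlopePropQM (p ^ n) q M' A x

/-- **CUSP-q** (purity at the cusps), good levels, torsion order `p ^ n`. -/
def CuspPurityQGoodStatement : Prop :=
  ∀ (p n q M' : ℕ) [NeZero M'] [NeZero q] [NeZero (q * M')], WallQHyp p n q M' →
    ∀ A : ValuationSubring Kbar, A.LiesOverPrime q →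
    ∀ (g : FF (q * M')) (y : JZero (q * M')), IsKummerGen (q * M') (p ^ n) g y →
      NodeGenQ (p ^ n) q M' A g → FinGenQ (p ^ n) q M' A g

/-- **EIS-q**, good levels, torsion order `p ^ n`. -/
def EisSlopeQGoodStatement : Prop :=
  ∀ (p n q M' : ℕ) [NeZero M'] [NeZero q] [NeZero (q * M')], WallQHyp p n q M' →
    ∀ A : ValuationSubring Kbar, A.LiesOverPrime q →
    ∀ (S : Finset ℕ) (a : ℕ → ℤ) (x : JZero (q * M')),
      IsNewTorsQ (p ^ n) q M' x → EigenAt (q * M') S a x →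
      (∀ σ ∈ A.inertiaSubgroupIn ℚ, σ • x = x) →
      ∃ S' : Finset ℕ, IsEisModQ (p ^ n) q M' A S' x

/-- **The three targets modulo `p` at good levels.** -/
def WallQTargetsGoodStatement : Prop :=
  ∀ (p q M' : ℕ) [NeZero M'] [NeZero q] [NeZero (q * M')], WallQHyp p 1 q M' →
    ∀ A : ValuationSubring (AlgebraicClosure ℚ), A.LiesOverPrime q →
      ∃ 𝓕 𝒮 : AddSubgroup (JZero (q * M')),
        Q2For p q M' A 𝒮 ∧ Q3For p q M' 𝓕 𝒮 ∧ Q4For p q M' A 𝓕

/-- The wall at `q` (Frey form) at good levels. -/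
def WallQFreyGoodStatement : Prop :=
  ∀ (P : FreyPackage) (M' q : ℕ) [NeZero M'] [NeZero (q * M')], q.Prime → q ≠ 2 → q ≠ P.p →
    ¬ q ∣ M' → (5 ≤ q ∨ (q = 3 ∧ 2 ∣ M')) →
    GaloisRepIsIrreducible (K := AlgebraicClosure ℚ) ℚ P.freyCurve P.p →
    P.GaloisRepUnramifiedAt q → ¬ P.p ∣ q - 1 →
    ∀ (S : Finset ℕ) (a : ℕ → ℤ), NonEisAway P.p a → FreyEmbedsIn P (q * M') S a →
      Lowered M' P.p S a

/-- **(ODD-VACUOUS)** [helper384: RAM2 + rawES]  the Frey torsion does not embed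
Galois-equivariantly in `J₀(N)` for ODD `N` (`E[p]` is ramified at `2`; `J₀(N)[p]` is unramified
at `2` when `2 ∤ N p`). -/
def OddVacuousStatement : Prop :=
  ∀ (P : FreyPackage) (N : ℕ) [NeZero N], ¬ 2 ∣ N →
    ∀ (S : Finset ℕ) (a : ℕ → ℤ), ¬ FreyEmbedsIn P N S a

/-! ## Glue: EIS-q, instance level -/

/-- **EIS-q core, instance level**: proportional slopes ⇒ Eisenstein slopes, from HECKE-NODE and
CUSP at the given `(m, q, M', A)`. -/
theorem isEisModQ_of_slopePropQM' (hHF : HeckeFunStatement) (hU : UnitEisStatement)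
    (hRE : RedExistsStatement) (hRU : RedUniqueStatement) (hRF : RedFieldStatement)
    (m p q M' : ℕ) [NeZero M'] [NeZero q] [NeZero (q * M')] (hp : p ≠ 0) (hq : q.Prime)
    (hqM : ¬ q ∣ M') (A : ValuationSubring Kbar) (hA : A.LiesOverPrime q)
    (hHN : ∀ (ℓ : Nat.Primes) [NeZero (ℓ : ℕ)], ¬ (ℓ : ℕ) ∣ q * M' * p →
      ∀ f g : FF (q * M'),
        (g : LaurentSeries Kbar) = kronNorm (ℓ : ℕ) (f : LaurentSeries Kbar) →
        NodeGenQ m q M' A f → NodeGenQ m q M' A g)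
    (hCP : ∀ (g : FF (q * M')) (y : JZero (q * M')), IsKummerGen (q * M') m g y →
      NodeGenQ m q M' A g → FinGenQ m q M' A g)
    (x : JZero (q * M')) (hx : SlopePropQM m q M' A x) :
    IsEisModQ m q M' A (q * M' * p).primeFactors x := by
  intro ℓ hℓ
  have : NeZero (ℓ : ℕ) := ⟨ℓ.2.ne_zero⟩
  have hNp0 : q * M' * p ≠ 0 := mul_ne_zero (NeZero.ne _) hp
  have hℓNp : ¬ (ℓ : ℕ) ∣ q * M' * p := fun h =>
    hℓ (Nat.mem_primeFactors.mpr ⟨ℓ.2, h, hNp0⟩)
  have hℓN : ¬ (ℓ : ℕ) ∣ q * M' := fun h => hℓNp (dvd_mul_of_dvd_left h p)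
  have hℓq : (ℓ : ℕ) ≠ q := fun h => hℓN (h ▸ dvd_mul_right _ _)
  obtain ⟨f, D, G, n, a, b, hf, hD, hD0, hn0, hn, hG, hNG⟩ := hx
  obtain ⟨Tf, hTf, hTfK⟩ := hHF (q * M') ℓ hℓN f
  obtain ⟨TG, hTG, -⟩ := hHF (q * M') ℓ hℓN G
  obtain ⟨c, hc, hUD⟩ := hU q ℓ hq hℓq
  have hf0 : f ≠ 0 := hf.1
  have hG0 : G ≠ 0 := hNG.ne_zero
  set C : FF (q * M') := algebraMap Kbar (FF (q * M')) c with hC
  have hC0 : C ≠ 0 := by simpa [hC] using hc
  set E : FF (q * M') := D ^ ((ℓ : ℕ) + 1) with hE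
  have hE0 : E ≠ 0 := pow_ne_zero _ hD0
  have h2 : TG * (C * E) ^ b = Tf ^ n * (C * E) ^ a := by
    apply Subtype.ext
    have e1 : ((C * E : FF (q * M')) : LaurentSeries Kbar) =
        kronNorm (ℓ : ℕ) (D : LaurentSeries Kbar) := by
      have hD' : (D : LaurentSeries Kbar) = Fermat.Agent.S28.unitL Kbar q := hD
      have hCE : ((C * E : FF (q * M')) : LaurentSeries Kbar) =
          cst c * (D : LaurentSeries Kbar) ^ ((ℓ : ℕ) + 1) := rfl
      rw [hCE, hD', hUD]
    have e2 : ((TG * (C * E) ^ b : FF (q * M')) : LaurentSeries Kbar) =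
        kronNorm (ℓ : ℕ) ((G * D ^ b : FF (q * M')) : LaurentSeries Kbar) := by
      have : ((G * D ^ b : FF (q * M')) : LaurentSeries Kbar) =
          (G : LaurentSeries Kbar) * (D : LaurentSeries Kbar) ^ b := rfl
      rw [this, kronNorm_mul, kronNorm_pow, ← hTG, ← e1]
      rfl
    have e3 : ((Tf ^ n * (C * E) ^ a : FF (q * M')) : LaurentSeries Kbar) =
        kronNorm (ℓ : ℕ) ((f ^ n * D ^ a : FF (q * M')) : LaurentSeries Kbar) := by
      have : ((f ^ n * D ^ a : FF (q * M')) : LaurentSeries Kbar) =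
          (f : LaurentSeries Kbar) ^ n * (D : LaurentSeries Kbar) ^ a := rfl
      rw [this, kronNorm_mul, kronNorm_pow, kronNorm_pow, ← hTf, ← e1]
      rfl
    rw [e2, e3, hG]
  have h3 : G ^ ((ℓ : ℕ) + 1) * E ^ b = f ^ (n * ((ℓ : ℕ) + 1)) * E ^ a := by
    have h3' : (G * D ^ b) ^ ((ℓ : ℕ) + 1) = (f ^ n * D ^ a) ^ ((ℓ : ℕ) + 1) := by rw [hG]
    calc G ^ ((ℓ : ℕ) + 1) * E ^ b = (G * D ^ b) ^ ((ℓ : ℕ) + 1) := by rw [hE]; ring
      _ = (f ^ n * D ^ a) ^ ((ℓ : ℕ) + 1) := h3'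
      _ = f ^ (n * ((ℓ : ℕ) + 1)) * E ^ a := by rw [hE]; ring
  set g : FF (q * M') := Tf * (f ^ ((ℓ : ℕ) + 1))⁻¹ with hg
  have hgK : IsKummerGen (q * M') m g
      (heckeOperatorBar (q * M') ℓ x - ((ℓ : ℕ) + 1) • x) := by
    have := (hTfK m x hf).mul ((hf.pow ((ℓ : ℕ) + 1)).inv)
    rwa [← sub_eq_add_neg] at this
  have hg0 : g ≠ 0 := hgK.1
  have h4 : Tf ^ n * C ^ a * G ^ ((ℓ : ℕ) + 1) = C ^ b * TG * f ^ (n * ((ℓ : ℕ) + 1)) := by
    have hEE : E ^ a * E ^ b ≠ 0 := mul_ne_zero (pow_ne_zero _ hE0) (pow_ne_zero _ hE0)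
    apply mul_right_cancel₀ hEE
    rw [mul_pow, mul_pow] at h2
    linear_combination (-(f ^ (n * ((ℓ : ℕ) + 1)) * E ^ a)) * h2 + (Tf ^ n * C ^ a * E ^ a) * h3
  have h5 : g ^ n = algebraMap Kbar (FF (q * M')) (c ^ b * (c ^ a)⁻¹) *
      (TG * (G ^ ((ℓ : ℕ) + 1))⁻¹) := by
    have hCa : C ^ a ≠ 0 := pow_ne_zero _ hC0
    have hGl : G ^ ((ℓ : ℕ) + 1) ≠ 0 := pow_ne_zero _ hG0
    have hfl : f ^ ((ℓ : ℕ) + 1) ≠ 0 := pow_ne_zero _ hf0
    have hcc : algebraMap Kbar (FF (q * M')) (c ^ b * (c ^ a)⁻¹) = C ^ b * (C ^ a)⁻¹ := by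
      rw [map_mul, map_inv₀, map_pow, map_pow]
    rw [hcc, hg, mul_pow, inv_pow, ← pow_mul, mul_comm ((ℓ : ℕ) + 1) n]
    have hfn : f ^ (n * ((ℓ : ℕ) + 1)) ≠ 0 := pow_ne_zero _ hf0
    field_simp
    linear_combination h4
  have hcb : c ^ b * (c ^ a)⁻¹ ≠ 0 :=
    mul_ne_zero (pow_ne_zero _ hc) (inv_ne_zero (pow_ne_zero _ hc))
  have hNGn : NodeGenQ m q M' A (g ^ n) := by
    rw [h5]
    exact ((hHN ℓ hℓNp G TG hTG hNG).mul (hNG.pow _).inv).const_mul hcb
  have hNGg : NodeGenQ m q M' A g :=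
    NodeGenQ.of_pow_coprime hRE hRU hRF hq hqM hA hn0 hn hg0 hNGn
  exact AddSubgroup.subset_closure ⟨g, hgK, hCP g _ hgK hNGg⟩

/-- **EIS-q at good levels from its leaves.** -/
theorem eisSlopeQGood_of (hCO : CoreOutQGoodStatement) (hHF : HeckeFunStatement)
    (hHN : HeckeNodeGenQPowStatement) (hU : UnitEisStatement) (hCP : CuspPurityQGoodStatement)
    (hRE : RedExistsStatement) (hRU : RedUniqueStatement) (hRF : RedFieldStatement) :
    EisSlopeQGoodStatement := by
  intro p n q M' _ _ _ h A hA S a x hx hex hfix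
  refine ⟨(q * M' * p).primeFactors,
    isEisModQ_of_slopePropQM' hHF hU hRE hRU hRF (p ^ n) p q M' h.p_prime.ne_zero h.q_prime
      h.not_dvd A hA ?_ ?_ x (hCO p n q M' h A hA S a x hx hex hfix)⟩
  · intro ℓ _ hℓ f g hg hf
    exact hHN p n q M' h.p_prime h.n_pos h.q_prime h.q_ne_p h.not_dvd A hA ℓ hℓ f g hg hf
  · intro g y hg hN
    exact hCP p n q M' h A hA g y hg hN

/-! ## Glue: the targets at good levels -/

/-- The three targets at good levels from (Q2), (Q3), EIS-q at good levels. -/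
theorem wallQTargetsGood_of (h2 : Q2GoodStatement) (h3 : Q3GoodStatement)
    (hE : EisSlopeQGoodStatement) : WallQTargetsGoodStatement := by
  intro p q M' _ _ _ h A hA
  have e2 := h2 p 1 q M' h A hA
  rw [pow_one] at e2
  refine ⟨finPartQ p q M' A, splitPartQ p q M' A, e2, h3 p q M' h A hA, ?_⟩
  intro S a hNE x hx hex hfix
  obtain ⟨S', hS'⟩ := hE p 1 q M' h A hA S a x (by rwa [pow_one]) hex hfix
  rw [pow_one] at hS'
  exact mem_finPartQ_of_eis p q M' h.p_prime A S S' a hNE x hx.1 hex hS'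

/-- (Q3) at good levels from RED-MAP at good levels. -/
theorem q3Good_of_redMapGood (h : RedMapGoodStatement) : Q3GoodStatement := by
  intro p q M' _ _ _ hh A hA
  obtain ⟨S₀, β, hβ⟩ := h p 1 q M' hh A hA
  have h3 : Q3For p q M' (finPartQ (p ^ 1) q M' A) (splitPartQ (p ^ 1) q M' A) :=
    q3For_of_redMapFor hβ
  rwa [pow_one] at h3

/-- The three targets at good levels from (Q2), RED-MAP, EIS-q at good levels. -/
theorem wallQTargetsGood_of_redMap (h2 : Q2GoodStatement) (h3 : RedMapGoodStatement)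
    (hE : EisSlopeQGoodStatement) : WallQTargetsGoodStatement :=
  wallQTargetsGood_of h2 (q3Good_of_redMapGood h3) hE

/-- **WALL-q at good levels from the three targets**: Places + DETF + DIM + targets. -/
theorem wallQFreyGood_of_targets (hPl : PlacesStatement) (hDet : DetFrobStatement)
    (hDim : TorsionRankStatement) (hT : WallQTargetsGoodStatement) :
    WallQFreyGoodStatement := by
  intro P M' q _ _ hq hq2 hqp hqM' hgood hirr hunr hq1 S a hNE hemb
  haveI : NeZero q := ⟨hq.ne_zero⟩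
  obtain ⟨A, hA, φ, hφ⟩ := hPl q hq
  obtain ⟨𝓕, 𝒮, h2, h3, h4⟩ :=
    hT P.p q M' ⟨P.pp, P.hp5, Nat.one_pos, hq, hq2, hqp, hqM', hgood⟩ A hA
  exact lowered_of_targetsQ P hq hqp hirr (hDim P) hφ (hDet P q hq hqp A hA φ hφ)
    (fun σ hσ x => hunr A hA σ hσ x) hq1 h2 h3 h4 hNE hemb

/-- **WALL-q (all levels) from WALL-q at good levels and ODD-VACUOUS.** -/
theorem wallQFrey_of_good (hW : WallQFreyGoodStatement) (hOdd : OddVacuousStatement) :
    WallQFreyStatement := by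
  intro P M' q _ _ hq hq2 hqp hqM' hirr hunr hq1 S a hNE hemb
  by_cases h2 : 2 ∣ M'
  · refine hW P M' q hq hq2 hqp hqM' ?_ hirr hunr hq1 S a hNE hemb
    by_cases h5 : 5 ≤ q
    · exact Or.inl h5
    · right
      refine ⟨?_, h2⟩
      have h2q := hq.two_le
      have h4 : q ≠ 4 := by
        rintro rfl
        exact absurd hq (by decide)
      omega
  · exfalso
    have hodd : ¬ 2 ∣ q * M' := by
      intro h
      rcases (Nat.Prime.dvd_mul Nat.prime_two).mp h with h' | h'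
      · exact hq2 ((Nat.prime_dvd_prime_iff_eq Nat.prime_two hq).mp h').symm
      · exact h2 h'
    exact hOdd P (q * M') hodd S a hemb

/-! ## The all-levels forms imply the good-level forms -/

theorem q2Good_of_all (h : Q2PowStatement) : Q2GoodStatement :=
  fun p n q M' _ _ _ hh A hA =>
    h p n q M' hh.p_prime hh.five_le hh.n_pos hh.q_prime hh.q_ne_two hh.q_ne_p hh.not_dvd A hA

theorem redMapGood_of_all (h : RedMapStatement) : RedMapGoodStatement :=
  fun p n q M' _ _ _ hh A hA =>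
    h p n q M' hh.p_prime hh.five_le hh.n_pos hh.q_prime hh.q_ne_two hh.q_ne_p hh.not_dvd A hA

theorem q3Good_of_all (h : Q3Statement) : Q3GoodStatement :=
  fun p q M' _ _ _ hh A hA =>
    h p q M' hh.p_prime hh.five_le hh.q_prime hh.q_ne_two hh.q_ne_p hh.not_dvd A hA

theorem coreOutQGood_of_all (h : CoreOutQPowStatement) : CoreOutQGoodStatement :=
  fun p n q M' _ _ _ hh A hA =>
    h p n q M' hh.p_prime hh.five_le hh.n_pos hh.q_prime hh.q_ne_two hh.q_ne_p hh.not_dvd A hA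

theorem cuspPurityQGood_of_all (h : CuspPurityQPowStatement) : CuspPurityQGoodStatement :=
  fun p n q M' _ _ _ hh A hA =>
    h p n q M' hh.p_prime hh.n_pos hh.q_prime hh.q_ne_p hh.not_dvd A hA

end Fermat.Agent.Ribet.H158.WallQ

end
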