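import Fermat.Agent.Ribet.H158.WallQSpec
import Fermat.Agent.Ribet.H884.SlopeSpec

/-!
# Row 37, WALL-q: the two subgroups `𝓕 = finPartQ`, `𝒮 = splitPartQ` of `J₀(qM')(ℚ̄)` and the
# three leaves   (wall architect helper158; FROZEN definitions + Props + PROVED glue)

`N = q·M'`, `q ∤ M'`, `p ≠ q`, `A` a valuation subring of `ℚ̄` over `q`, `k = kA A` (algebraically
closed of characteristic `q`: `H884.ResFieldStatement` at `q`).  Vocabulary of
`H884/SlopeSpec.lean` (generic in the level and in `A`): `IsKummerGen N p f x`, `IsRedInf N A f r`,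
`IsRedZero N A f r`, `PDivSeries p M' r`.

## Definitions
* `PPowSeries p M' r` : `r = c · h ^ p` with `c ∈ kˣ`, `h ∈ F_kˣ`, `F_k = k(X₀(M'))`.
  (At `q ≠ p` EVERY series with `p`-divisible order is a `p`-th power in `k((t))`, so the
  condition `H884.SplitSeries` of the wall at `p` is replaced by "`p`-th power IN `F_k`".)
* `FinGenQ p q M' A f`   : both reductions of `f ∈ FF (q M')` are `PDivSeries p M'`  (slopes `0`);
* `SplitGenQ p q M' A f` : both reductions of `f` are `PPowSeries p M'`  (trivial reductions);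
* `finPartQ p q M' A`, `splitPartQ p q M' A` : the subgroups generated by the classes having a
  Kummer generator (`div f = p·D`) with `FinGenQ`, resp. `SplitGenQ`.

## Leaves
| leaf | Prop | content |
|---|---|---|
| FROB-AL | `Q2Statement`        | `Q2For p q M' A (splitPartQ …)` : `φ = q·u`, `u = -w_q`, on the new part of `𝒮` |
| RED     | `Q3Statement`        | `Q3For p q M' (finPartQ …) (splitPartQ …)` : a new eigenclass in `𝓕 ∖ 𝒮` is lowered |
| EIS-q   | `EisSlopeQStatement` | `I`-fixed new eigenclass ⇒ `T_ℓ x - (ℓ+1) x ∈ 𝓕` off a finite set (tame node relation + Eisenstein modular unit `Δ(t^q)/Δ(t)`) |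

## Proved here
* `mem_finPartQ_of_eis`, `q4For_of : EisSlopeQ → Q4For (finPartQ)` (NE + Bezout);
* `wallQTargets_of : Q2 → Q3 → EisSlopeQ → WallQTargetsStatement`.
-/

set_option autoImplicit false
set_option synthInstance.maxHeartbeats 400000
set_option maxHeartbeats 1000000

noncomputable section

namespace Fermat.Agent.Ribet.H158.WallQ

open AlgebraicCurve ModularCurve HahnSeries
open Fermat.Agent.S24 Fermat.Agent.A2.H708 Fermat.Agent.A2.H528
open Fermat.Agent.Ribet.Spec Fermat.Agent.Ribet.H944.Wall Fermat.Agent.Ribet.H884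

/-- `r` is a constant times the `p`-th power of a nonzero element of `F_k = k(X₀(M'))`. -/
def PPowSeries (p M' : ℕ) {k : Type} [Field k] (r : LaurentSeries k) : Prop :=
  ∃ (c : k) (h : modularFunctionFieldFullC k M'), c ≠ 0 ∧ h ≠ 0 ∧
    r = HahnSeries.C c * (h : LaurentSeries k) ^ p

/-! ## The two subgroups -/

section Parts

variable (p q M' : ℕ) [NeZero (q * M')] (A : ValuationSubring Kbar)

/-- `f` has slopes `0` on both components (level `q M'`, divisibility by `p`). -/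
def FinGenQ (f : FF (q * M')) : Prop :=
  ∃ r₁ r₂ : LaurentSeries (kA A), IsRedInf (q * M') A f r₁ ∧ IsRedZero (q * M') A f r₂ ∧
    PDivSeries p M' r₁ ∧ PDivSeries p M' r₂

/-- `f` has `p`-th power reductions (in `F_k`, up to constants) on both components. -/
def SplitGenQ (f : FF (q * M')) : Prop :=
  ∃ r₁ r₂ : LaurentSeries (kA A), IsRedInf (q * M') A f r₁ ∧ IsRedZero (q * M') A f r₂ ∧
    PPowSeries p M' r₁ ∧ PPowSeries p M' r₂

/-- Classes with a Kummer generator of slopes `0`. -/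
def finSetQ : Set (JZero (q * M')) :=
  {x | ∃ f : FF (q * M'), IsKummerGen (q * M') p f x ∧ FinGenQ p q M' A f}

/-- Classes with a Kummer generator with `p`-th power reductions. -/
def splitSetQ : Set (JZero (q * M')) :=
  {x | ∃ f : FF (q * M'), IsKummerGen (q * M') p f x ∧ SplitGenQ p q M' A f}

/-- **The finite part `𝓕`** of `J₀(qM')[p]` at `A` (`A` over `q ≠ p`). -/
def finPartQ : AddSubgroup (JZero (q * M')) := AddSubgroup.closure (finSetQ p q M' A)

/-- **The split (toric) part `𝒮`** of `J₀(qM')[p]` at `A` (`A` over `q ≠ p`). -/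
def splitPartQ : AddSubgroup (JZero (q * M')) := AddSubgroup.closure (splitSetQ p q M' A)

end Parts

/-! ## Leaves -/

/-- **(Q2) FROB-AL** for `𝒮 = splitPartQ`. -/
def Q2Statement : Prop :=
  ∀ (p q M' : ℕ) [NeZero M'] [NeZero q] [NeZero (q * M')], p.Prime → 5 ≤ p → q.Prime →
    q ≠ 2 → q ≠ p → ¬ q ∣ M' →
    ∀ A : ValuationSubring Kbar, A.LiesOverPrime q → Q2For p q M' A (splitPartQ p q M' A)

/-- **(Q3) RED** for `𝓕 = finPartQ`, `𝒮 = splitPartQ`. -/
def Q3Statement : Prop :=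
  ∀ (p q M' : ℕ) [NeZero M'] [NeZero q] [NeZero (q * M')], p.Prime → 5 ≤ p → q.Prime →
    q ≠ 2 → q ≠ p → ¬ q ∣ M' →
    ∀ A : ValuationSubring Kbar, A.LiesOverPrime q →
      Q3For p q M' (finPartQ p q M' A) (splitPartQ p q M' A)

/-- `x` has Eisenstein slopes off `S'`: `T_ℓ x - (ℓ + 1) x ∈ 𝓕`. -/
def IsEisModQ (p q M' : ℕ) [NeZero (q * M')] (A : ValuationSubring Kbar) (S' : Finset ℕ)
    (x : JZero (q * M')) : Prop :=
  ∀ ℓ : Nat.Primes, (ℓ : ℕ) ∉ S' →
    heckeOperatorBar (q * M') ℓ x - ((ℓ : ℕ) + 1) • x ∈ finPartQ p q M' A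

/-- **EIS-q** (tame node relation + the Eisenstein modular unit `Δ(t^q)/Δ(t)`): a new eigenclass
fixed by inertia at `A` — WITHOUT the non-Eisenstein hypothesis — has Eisenstein slopes:
`T_ℓ x - (ℓ+1) x ∈ 𝓕` off a finite set. -/
def EisSlopeQStatement : Prop :=
  ∀ (p q M' : ℕ) [NeZero M'] [NeZero q] [NeZero (q * M')], p.Prime → 5 ≤ p → q.Prime →
    q ≠ 2 → q ≠ p → ¬ q ∣ M' →
    ∀ A : ValuationSubring Kbar, A.LiesOverPrime q →
    ∀ (S : Finset ℕ) (a : ℕ → ℤ) (x : JZero (q * M')),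
      IsNewTorsQ p q M' x → EigenAt (q * M') S a x →
      (∀ σ ∈ A.inertiaSubgroupIn ℚ, σ • x = x) →
      ∃ S' : Finset ℕ, IsEisModQ p q M' A S' x

/-! ## Glue -/

/-- Pure group theory: an eigenclass with non-Eisenstein eigenvalues and Eisenstein slopes has
slopes `0`. -/
theorem mem_finPartQ_of_eis (p q M' : ℕ) [NeZero (q * M')] (hp : p.Prime)
    (A : ValuationSubring Kbar) (S S' : Finset ℕ) (a : ℕ → ℤ) (hNE : NonEisAway p a)
    (x : JZero (q * M')) (hpx : p • x = 0) (heig : EigenAt (q * M') S a x)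
    (hE : IsEisModQ p q M' A S' x) : x ∈ finPartQ p q M' A := by
  obtain ⟨ℓ, hℓ, hℓS, hndvd⟩ := hNE (S ∪ S')
  have hℓ1 : ℓ ∉ S := fun h => hℓS (Finset.mem_union_left _ h)
  have hℓ2 : ℓ ∉ S' := fun h => hℓS (Finset.mem_union_right _ h)
  have h1 := hE ⟨ℓ, hℓ⟩ hℓ2
  rw [heig ⟨ℓ, hℓ⟩ hℓ1] at h1
  have h2 : (a ℓ - ((ℓ : ℤ) + 1)) • x ∈ finPartQ p q M' A := by
    have e : (a ℓ - ((ℓ : ℤ) + 1)) • x = a ℓ • x - ((ℓ : ℕ) + 1) • x := by
      have h3 : ((ℓ : ℤ) + 1) = (((ℓ : ℕ) + 1 : ℕ) : ℤ) := by push_cast; ring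
      rw [sub_smul, h3, natCast_zsmul]
    rw [e]
    exact h1
  have hcop : IsCoprime (a ℓ - ((ℓ : ℤ) + 1)) (p : ℤ) := by
    have hpp : Prime (p : ℤ) := Nat.prime_iff_prime_int.mp hp
    exact (IsCoprime.symm ((Prime.coprime_iff_not_dvd hpp).mpr hndvd))
  obtain ⟨u, v, huv⟩ := hcop
  have hx : x = u • ((a ℓ - ((ℓ : ℤ) + 1)) • x) + v • ((p : ℤ) • x) := by
    rw [smul_smul, smul_smul, ← add_zsmul, huv, one_zsmul]
  rw [hx]
  refine (finPartQ p q M' A).add_mem ((finPartQ p q M' A).zsmul_mem h2 u) ?_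
  have : ((p : ℤ) • x) = 0 := by rw [natCast_zsmul]; exact hpx
  rw [this, smul_zero]
  exact (finPartQ p q M' A).zero_mem

/-- **(Q4)** from EIS-q. -/
theorem q4For_of (hE : EisSlopeQStatement)
    (p q M' : ℕ) [NeZero M'] [NeZero q] [NeZero (q * M')] (hp : p.Prime) (hp5 : 5 ≤ p)
    (hq : q.Prime) (hq2 : q ≠ 2) (hqp : q ≠ p) (hqM : ¬ q ∣ M')
    (A : ValuationSubring Kbar) (hA : A.LiesOverPrime q) :
    Q4For p q M' A (finPartQ p q M' A) := by
  intro S a hNE x hx hex hfix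
  obtain ⟨S', hS'⟩ := hE p q M' hp hp5 hq hq2 hqp hqM A hA S a x hx hex hfix
  exact mem_finPartQ_of_eis p q M' hp A S S' a hNE x hx.1 hex hS'

/-- **The three targets** (`WallQTargetsStatement`) from the three leaves. -/
theorem wallQTargets_of (h2 : Q2Statement) (h3 : Q3Statement) (hE : EisSlopeQStatement) :
    WallQTargetsStatement := by
  intro p q M' _ _ _ hp hp5 hq hq2 hqp hqM A hA
  exact ⟨finPartQ p q M' A, splitPartQ p q M' A, h2 p q M' hp hp5 hq hq2 hqp hqM A hA,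
    h3 p q M' hp hp5 hq hq2 hqp hqM A hA, q4For_of hE p q M' hp hp5 hq hq2 hqp hqM A hA⟩

end Fermat.Agent.Ribet.H158.WallQ

end
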