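import Fermat.Agent.Ribet.H158.WallQClosedPlus
import Fermat.Agent.Ribet.H818.FrobAL
import Fermat.Agent.Ribet.H343.Q3Closed
import Fermat.Agent.Ribet.H384.OddVacuous
import Fermat.Agent.Ribet.H912.CoreOutQ
import Fermat.Agent.Ribet.H644.CuspPurityQGood

/-!
# RIBET row 37, WALL-q: FINAL ASSEMBLY, UNCONDITIONAL (helper158)

All five inputs of `WallQClosedPlus.lean` are closed on main:

| leaf | theorem |
|---|---|
| (Q2) FROB-AL      | `H818.q2Good : Q2GoodStatement` |
| (Q3) RED          | `H343.q3Good : Q3GoodStatement` |
| CORE-OUT-q        | `H912.coreOutQGood : CoreOutQGoodStatement` |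
| CUSP-q            | `H644.cuspPurityQGood : CuspPurityQGoodStatement` |
| ODD-VACUOUS       | `H384.oddVacuous : OddVacuousStatement` |

Hence, with NO hypothesis:

* `wallQTargetsGood : WallQTargetsGoodStatement`
* `wallQFrey : WallQFreyStatement`, `wallQFreyPlus : H723.WallQFreyPlusStatement`
* `mazurPrincipleOdd : MazurPrincipleOddStatement`   (Mazur's principle at odd `q ≠ p`,
  `p ∤ q - 1`)
* `mazurPrincipleOddPlus : H723.MazurPrincipleOddPlusStatement`   (sharp form: `p ∤ q - 1` or
  Frobenius at `q` not scalar)
* `S43_of_hardScalar : H723.HardScalarStatement → S43Statement`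
* `S43_of_hard : H943.Row37.HardCaseStatement → S43Statement`
-/

set_option autoImplicit false

noncomputable section

namespace Fermat.Agent.Ribet.H158.WallQ

open Fermat.Agent.Ribet Fermat.Agent.Ribet.Spec

/-- The three targets of the wall at `q`, good levels — unconditional. -/
theorem wallQTargetsGood : WallQTargetsGoodStatement :=
  wallQTargetsGood_of_leaves H818.q2Good H343.q3Good H912.coreOutQGood H644.cuspPurityQGood

/-- **The wall at `q`** (all levels) — unconditional. -/
theorem wallQFrey : WallQFreyStatement :=
  wallQFrey_of_goodLeaves H818.q2Good H343.q3Good H912.coreOutQGood H644.cuspPurityQGood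
    H384.oddVacuous

/-- **The sharp wall at `q`** — unconditional. -/
theorem wallQFreyPlus : H723.WallQFreyPlusStatement :=
  wallQFreyPlus_of_goodLeaves H818.q2Good H343.q3Good H912.coreOutQGood H644.cuspPurityQGood
    H384.oddVacuous

/-- **Mazur's principle at odd `q ≠ p`** — unconditional. -/
theorem mazurPrincipleOdd : MazurPrincipleOddStatement :=
  mazurPrincipleOdd_of_goodLeaves H818.q2Good H343.q3Good H912.coreOutQGood
    H644.cuspPurityQGood H384.oddVacuous

/-- **Mazur's principle at odd `q ≠ p`, sharp form** — unconditional. -/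
theorem mazurPrincipleOddPlus : H723.MazurPrincipleOddPlusStatement :=
  H723.mazurPrincipleOddPlus_of_wallQ H823.embed wallQFreyPlus H583.nonEisenstein583
    H404.eigenformOfOccursAway H943.Final.almostAllToWitness

/-- **S43 from the SCALAR hard case alone.** -/
theorem S43_of_hardScalar (hH : H723.HardScalarStatement) : S43Statement :=
  S43_of_goodLeaves_hardScalar H818.q2Good H343.q3Good H912.coreOutQGood H644.cuspPurityQGood
    H384.oddVacuous hH

/-- **S43 from the hard case alone.** -/
theorem S43_of_hard (hH : H943.Row37.HardCaseStatement) : S43Statement :=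
  S43_of_goodLeaves_hard H818.q2Good H343.q3Good H912.coreOutQGood H644.cuspPurityQGood
    H384.oddVacuous hH

end Fermat.Agent.Ribet.H158.WallQ

end
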