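import Fermat.Agent.Ribet.H158.WallQEis

/-!
# Row 37, WALL-q for classes killed by `p ^ n` + the reduction map  (wall architect helper158)

ADDITIVE to `WallQ{Spec,Slope,Eis}.lean` (requested by the HARD/IA cell FIN: Mazur's principle
modulo `p ^ n`).  The definitions `IsNewTorsQ`, `Q2For`, `finPartQ`, `splitPartQ`, `NodeGenQ` are
generic in their first argument `m` (the torsion order); here the leaves are frozen for
`m = p ^ n`, and the leaves of the wall modulo `p` are DERIVED from them (`n = 1`).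
**Owners whose proof is generic in `m` should prove the `Pow` form: it serves both.**

## Leaves (torsion order `p ^ n`, `p ≥ 5`, odd `q ≠ p`, `q ∤ M'`, `A` over `q`)
| leaf | Prop | gives (proved here) |
|---|---|---|
| FROB-AL  | `Q2PowStatement`            | `q2_of_pow : … → Q2Statement` |
| RED-MAP  | `RedMapStatement`           | `q3_of_redMap : … → Q3Statement` |
| EIS-q    | `EisSlopeQPowStatement`     | `eisSlopeQ_of_pow : … → EisSlopeQStatement` |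
| CORE-OUT | `CoreOutQPowStatement`      | `coreOutQ_of_pow` |
| HECKE-NODE | `HeckeNodeGenQPowStatement` | `heckeNodeGenQ_of_pow` |
| CUSP     | `CuspPurityQPowStatement`   | `cuspPurityQ_of_pow` |

`RedMapFor q M' S₀ 𝓕 𝒮 β`: `β : 𝓕 →+ J₀(M') × J₀(M')` is Hecke-equivariant off `S₀` and
`ker β ≤ 𝒮` ("`𝓕 / 𝒮` is the abelian part `J₀(M')[m]²`").  Definition of `β` from the landed
vocabulary: `β x = (z, z')` iff `x - α^* z` has trivial `∞`-reduction and `x - β^* z'` has trivial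
`0`-reduction (`z`, `z'` exist by GR-SURJ = torsion lifts along `reductionModL`, are unique by S18).

## Proved here
* `PDivFin.of_pow_coprime`, `NodeGenQ.of_pow_coprime` (extraction of roots prime to `m`);
* `q3For_of_redMapFor` ((Q3) from RED-MAP);
* `isEisModQ_of_slopePropQM`, **`eisSlopeQPow_of`** (the EIS-q glue for `p ^ n`);
* `mem_finPartQ_pow_of_eis`, `q4PowFor_of` ((Q4) for `p ^ n`);
* `q2_of_pow`, `q3_of_redMap`, `eisSlopeQ_of_pow`, `coreOutQ_of_pow`, `heckeNodeGenQ_of_pow`,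
  `cuspPurityQ_of_pow`; `wallQTargets_of_pow`.
-/

set_option autoImplicit false
set_option synthInstance.maxHeartbeats 400000
set_option maxHeartbeats 1000000
set_option linter.unusedSectionVars false

noncomputable section

namespace Fermat.Agent.Ribet.H158.WallQ

open AlgebraicCurve ModularCurve HahnSeries
open Fermat.Agent.S24 Fermat.Agent.A2.H708 Fermat.Agent.A2.H528 Fermat.Agent.A2.H129
open Fermat.Agent.Ribet.Spec Fermat.Agent.Ribet.H944.Wall Fermat.Agent.Ribet.H884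
open Fermat.Agent.S37.H400

/-! ## Vocabulary -/

/-- **RED-MAP**: `β : 𝓕 → J₀(M') × J₀(M')` is Hecke-equivariant off `S₀` with kernel inside
`𝒮`. -/
def RedMapFor (q M' : ℕ) [NeZero M'] [NeZero (q * M')] (S₀ : Finset ℕ)
    (𝓕 𝒮 : AddSubgroup (JZero (q * M'))) (β : 𝓕 →+ JZero M' × JZero M') : Prop :=
  (∀ ℓ : Nat.Primes, (ℓ : ℕ) ∉ S₀ → ∀ x : 𝓕,
    ∃ hx : heckeOperatorBar (q * M') ℓ (x : JZero (q * M')) ∈ 𝓕,
      β ⟨_, hx⟩ = (heckeOperatorBar M' ℓ (β x).1, heckeOperatorBar M' ℓ (β x).2)) ∧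
  ∀ x : 𝓕, β x = 0 → (x : JZero (q * M')) ∈ 𝒮

/-- The slope vector of the `m`-torsion class `x` is a multiple of the slope vector of the
modular unit `Δ(t^q)/Δ(t)` (`n ≠ 0` prime to `m`). -/
def SlopePropQM (m q M' : ℕ) [NeZero q] [NeZero (q * M')] (A : ValuationSubring Kbar)
    (x : JZero (q * M')) : Prop :=
  ∃ (f D G : FF (q * M')) (n a b : ℕ), IsKummerGen (q * M') m f x ∧ IsModUnit q M' D ∧
    D ≠ 0 ∧ n ≠ 0 ∧ Nat.Coprime n m ∧ G * D ^ b = f ^ n * D ^ a ∧ NodeGenQ m q M' A G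

/-- (Q4) for `p ^ n`-torsion: a new, non-Eisenstein eigenclass fixed by inertia lies in `𝓕`. -/
def Q4PowFor (p n q M' : ℕ) [NeZero M'] [NeZero q] [NeZero (q * M')]
    (A : ValuationSubring (AlgebraicClosure ℚ)) (𝓕 : AddSubgroup (JZero (q * M'))) : Prop :=
  ∀ (S : Finset ℕ) (a : ℕ → ℤ), NonEisAway p a → ∀ x : JZero (q * M'),
    IsNewTorsQ (p ^ n) q M' x → EigenAt (q * M') S a x →
    (∀ σ ∈ A.inertiaSubgroupIn ℚ, σ • x = x) → x ∈ 𝓕

/-! ## Leaves for `p ^ n` -/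

/-- **(Q2) FROB-AL** for `p ^ n`-torsion. -/
def Q2PowStatement : Prop :=
  ∀ (p n q M' : ℕ) [NeZero M'] [NeZero q] [NeZero (q * M')], p.Prime → 5 ≤ p → 0 < n →
    q.Prime → q ≠ 2 → q ≠ p → ¬ q ∣ M' →
    ∀ A : ValuationSubring Kbar, A.LiesOverPrime q →
      Q2For (p ^ n) q M' A (splitPartQ (p ^ n) q M' A)

/-- **RED-MAP** for `p ^ n`-torsion: `𝓕 / 𝒮` embeds Hecke-equivariantly in `J₀(M')²`. -/
def RedMapStatement : Prop :=
  ∀ (p n q M' : ℕ) [NeZero M'] [NeZero q] [NeZero (q * M')], p.Prime → 5 ≤ p → 0 < n →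
    q.Prime → q ≠ 2 → q ≠ p → ¬ q ∣ M' →
    ∀ A : ValuationSubring Kbar, A.LiesOverPrime q →
      ∃ (S₀ : Finset ℕ) (β : finPartQ (p ^ n) q M' A →+ JZero M' × JZero M'),
        RedMapFor q M' S₀ (finPartQ (p ^ n) q M' A) (splitPartQ (p ^ n) q M' A) β

/-- **EIS-q** for `p ^ n`-torsion. -/
def EisSlopeQPowStatement : Prop :=
  ∀ (p n q M' : ℕ) [NeZero M'] [NeZero q] [NeZero (q * M')], p.Prime → 5 ≤ p → 0 < n →
    q.Prime → q ≠ 2 → q ≠ p → ¬ q ∣ M' →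
    ∀ A : ValuationSubring Kbar, A.LiesOverPrime q →
    ∀ (S : Finset ℕ) (a : ℕ → ℤ) (x : JZero (q * M')),
      IsNewTorsQ (p ^ n) q M' x → EigenAt (q * M') S a x →
      (∀ σ ∈ A.inertiaSubgroupIn ℚ, σ • x = x) →
      ∃ S' : Finset ℕ, IsEisModQ (p ^ n) q M' A S' x

/-- **CORE-OUT-q** for `p ^ n`-torsion (tame node relation). -/
def CoreOutQPowStatement : Prop :=
  ∀ (p n q M' : ℕ) [NeZero M'] [NeZero q] [NeZero (q * M')], p.Prime → 5 ≤ p → 0 < n →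
    q.Prime → q ≠ 2 → q ≠ p → ¬ q ∣ M' →
    ∀ A : ValuationSubring Kbar, A.LiesOverPrime q →
    ∀ (S : Finset ℕ) (a : ℕ → ℤ) (x : JZero (q * M')),
      IsNewTorsQ (p ^ n) q M' x → EigenAt (q * M') S a x →
      (∀ σ ∈ A.inertiaSubgroupIn ℚ, σ • x = x) →
      SlopePropQM (p ^ n) q M' A x

/-- **HECKE-NODE-q** for `p ^ n`. -/
def HeckeNodeGenQPowStatement : Prop :=
  ∀ (p n q M' : ℕ) [NeZero M'] [NeZero q] [NeZero (q * M')], p.Prime → 0 < n → q.Prime →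
    q ≠ p → ¬ q ∣ M' →
    ∀ A : ValuationSubring Kbar, A.LiesOverPrime q →
    ∀ (ℓ : Nat.Primes) [NeZero (ℓ : ℕ)], ¬ (ℓ : ℕ) ∣ q * M' * p →
    ∀ f g : FF (q * M'),
      (g : LaurentSeries Kbar) = kronNorm (ℓ : ℕ) (f : LaurentSeries Kbar) →
      NodeGenQ (p ^ n) q M' A f → NodeGenQ (p ^ n) q M' A g

/-- **CUSP-q** for `p ^ n`. -/
def CuspPurityQPowStatement : Prop :=
  ∀ (p n q M' : ℕ) [NeZero M'] [NeZero q] [NeZero (q * M')], p.Prime → 0 < n → q.Prime →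
    q ≠ p → ¬ q ∣ M' →
    ∀ A : ValuationSubring Kbar, A.LiesOverPrime q →
    ∀ (g : FF (q * M')) (y : JZero (q * M')), IsKummerGen (q * M') (p ^ n) g y →
      NodeGenQ (p ^ n) q M' A g → FinGenQ (p ^ n) q M' A g

/-! ## Calculus -/

/-- Extraction of `n`-th roots, `n ≠ 0` prime to `m`. -/
theorem PDivFin.of_pow_coprime {m M' : ℕ} {k : Type} [Field k] {n : ℕ} (hn0 : n ≠ 0)
    (hn : Nat.Coprime n m) {r s : LaurentSeries k}
    (hr : ∃ h : modularFunctionFieldFullC k M', (h : LaurentSeries k) = r)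
    (c : k) (hs : s = HahnSeries.C c * r ^ n) (h : PDivFin m M' s) : PDivFin m M' r := by
  obtain ⟨a, rfl⟩ := hr
  obtain ⟨b, hb, hb0, hdiv⟩ := h
  have hbe : b = algebraMap k (modularFunctionFieldFullC k M') c * a ^ n := by
    apply Subtype.ext
    have hc' : ((algebraMap k (modularFunctionFieldFullC k M') c :
        modularFunctionFieldFullC k M') : LaurentSeries k) = HahnSeries.C c := by
      have h0 : ((algebraMap k (modularFunctionFieldFullC k M') c :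
          modularFunctionFieldFullC k M') : LaurentSeries k) =
          algebraMap k (LaurentSeries k) c := rfl
      have h1 : algebraMap k (PowerSeries k) c = PowerSeries.C c := by simp
      rw [h0, HahnSeries.algebraMap_apply', h1, HahnSeries.ofPowerSeries_C]
    rw [hb, hs, IntermediateField.coe_mul, IntermediateField.coe_pow, hc']
  have hc : c ≠ 0 := by
    rintro rfl
    rw [hbe, map_zero, zero_mul] at hb0
    exact hb0 rfl
  have ha : a ≠ 0 := by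
    rintro rfl
    rw [hbe, zero_pow hn0, mul_zero] at hb0
    exact hb0 rfl
  refine ⟨a, rfl, ha, fun Q hQ => ?_⟩
  have h1 := hdiv Q hQ
  have hcF : algebraMap k (modularFunctionFieldFullC k M') c ≠ 0 := by simpa using hc
  rw [hbe, Place.ord_mul Q hcF (pow_ne_zero n ha), ord_algebraMap_eq_zero, zero_add,
    ord_pow] at h1
  have hcop : IsCoprime (m : ℤ) (n : ℤ) := by
    exact_mod_cast (Nat.isCoprime_iff_coprime.mpr hn.symm)
  exact hcop.dvd_of_dvd_mul_left h1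

section NodeGenQPowCalc

variable {m q M' : ℕ} [NeZero q] [NeZero (q * M')] {A : ValuationSubring Kbar}

/-- Extraction of `n`-th roots, `n ≠ 0` prime to `m` (needs the RED leaves at `q`). -/
theorem NodeGenQ.of_pow_coprime (hRE : RedExistsStatement) (hRU : RedUniqueStatement)
    (hRF : RedFieldStatement) [NeZero M'] (hq : q.Prime) (hqM : ¬ q ∣ M')
    (hA : A.LiesOverPrime q) {n : ℕ} (hn0 : n ≠ 0) (hn : Nat.Coprime n m) {g : FF (q * M')}
    (hg : g ≠ 0) (h : NodeGenQ m q M' A (g ^ n)) : NodeGenQ m q M' A g := by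
  obtain ⟨s₁, s₂, h1, h2, h3, h4⟩ := h
  obtain ⟨⟨r₁, hr₁⟩, ⟨r₂, hr₂⟩⟩ := hRE q (q * M') hq A hA g hg
  obtain ⟨-, c₁, -, hc₁⟩ := hRU q (q * M') hq A hA (g ^ n) (r₁ ^ n) s₁ (hr₁.pow n) h1
  have hr₂' : IsRedInf (q * M') A (wF (q * M') (g ^ n)) (r₂ ^ n) := IsRedZero.pow hr₂ n
  obtain ⟨-, c₂, -, hc₂⟩ := hRU q (q * M') hq A hA (wF (q * M') (g ^ n)) (r₂ ^ n) s₂ hr₂' h2
  exact ⟨r₁, r₂, hr₁, hr₂,
    PDivFin.of_pow_coprime hn0 hn (hRF q M' hq hqM A hA g r₁ (Or.inl hr₁)) c₁ hc₁ h3,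
    PDivFin.of_pow_coprime hn0 hn (hRF q M' hq hqM A hA g r₂ (Or.inr hr₂)) c₂ hc₂ h4⟩

end NodeGenQPowCalc

/-! ## Glue: EIS-q for `p ^ n` -/

/-- **EIS-q core** for torsion order `p ^ n`: proportional slopes ⇒ Eisenstein slopes. -/
theorem isEisModQ_of_slopePropQM (hHF : HeckeFunStatement) (hHN : HeckeNodeGenQPowStatement)
    (hU : UnitEisStatement) (hCP : CuspPurityQPowStatement) (hRE : RedExistsStatement)
    (hRU : RedUniqueStatement) (hRF : RedFieldStatement)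
    (p n₀ q M' : ℕ) [NeZero M'] [NeZero q] [NeZero (q * M')] (hp : p.Prime) (hn₀ : 0 < n₀)
    (hq : q.Prime) (hqp : q ≠ p) (hqM : ¬ q ∣ M')
    (A : ValuationSubring Kbar) (hA : A.LiesOverPrime q) (x : JZero (q * M'))
    (hx : SlopePropQM (p ^ n₀) q M' A x) :
    IsEisModQ (p ^ n₀) q M' A (q * M' * p).primeFactors x := by
  intro ℓ hℓ
  have : NeZero (ℓ : ℕ) := ⟨ℓ.2.ne_zero⟩
  have hNp0 : q * M' * p ≠ 0 := mul_ne_zero (NeZero.ne _) hp.ne_zero
  have hℓNp : ¬ (ℓ : ℕ) ∣ q * M' * p := fun h =>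
    hℓ (Nat.mem_primeFactors.mpr ⟨ℓ.2, h, hNp0⟩)
  have hℓN : ¬ (ℓ : ℕ) ∣ q * M' := fun h => hℓNp (dvd_mul_of_dvd_left h p)
  have hℓq : (ℓ : ℕ) ≠ q := fun h => hℓN (h ▸ dvd_mul_right _ _)
  obtain ⟨f, D, G, n, a, b, hf, hD, hD0, hn0, hn, hG, hNG⟩ := hx
  obtain ⟨Tf, hTf, hTfK⟩ := hHF (q * M') ℓ hℓN f
  obtain ⟨TG, hTG, -⟩ := hHF (q * M') ℓ hℓN G
  obtain ⟨c, hc, hUD⟩ := hU q ℓ hq hℓq
  have hf0 : f ≠ 0 := hf.1
  have hG0 : G ≠ 0 := hNG.ne_zero
  -- notation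
  set C : FF (q * M') := algebraMap Kbar (FF (q * M')) c with hC
  have hC0 : C ≠ 0 := by simpa [hC] using hc
  set E : FF (q * M') := D ^ ((ℓ : ℕ) + 1) with hE
  have hE0 : E ≠ 0 := pow_ne_zero _ hD0
  -- the Hecke transform of the relation `G * D ^ b = f ^ n * D ^ a`
  have h2 : TG * (C * E) ^ b = Tf ^ n * (C * E) ^ a := by
    apply Subtype.ext
    have e1 : ((C * E : FF (q * M')) : LaurentSeries Kbar) =
        kronNorm (ℓ : ℕ) (D : LaurentSeries Kbar) := by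
      have hD' : (D : LaurentSeries Kbar) = Fermat.Agent.S28.unitL Kbar q := hD
      have hCE : ((C * E : FF (q * M')) : LaurentSeries Kbar) =
          cst c * (D : LaurentSeries Kbar) ^ ((ℓ : ℕ) + 1) := rfl
      rw [hCE, hD', hUD]
    have e2 : ((TG * (C * E) ^ b : FF (q * M')) : LaurentSeries Kbar) =
        kronNorm (ℓ : ℕ) ((G * D ^ b : FF (q * M')) : LaurentSeries Kbar) := by
      have : ((G * D ^ b : FF (q * M')) : LaurentSeries Kbar) =
          (G : LaurentSeries Kbar) * (D : LaurentSeries Kbar) ^ b := rfl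
      rw [this, kronNorm_mul, kronNorm_pow, ← hTG, ← e1]
      rfl
    have e3 : ((Tf ^ n * (C * E) ^ a : FF (q * M')) : LaurentSeries Kbar) =
        kronNorm (ℓ : ℕ) ((f ^ n * D ^ a : FF (q * M')) : LaurentSeries Kbar) := by
      have : ((f ^ n * D ^ a : FF (q * M')) : LaurentSeries Kbar) =
          (f : LaurentSeries Kbar) ^ n * (D : LaurentSeries Kbar) ^ a := rfl
      rw [this, kronNorm_mul, kronNorm_pow, kronNorm_pow, ← hTf, ← e1]
      rfl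
    rw [e2, e3, hG]
  -- the `(ℓ+1)`-st power of the relation
  have h3 : G ^ ((ℓ : ℕ) + 1) * E ^ b = f ^ (n * ((ℓ : ℕ) + 1)) * E ^ a := by
    have h3' : (G * D ^ b) ^ ((ℓ : ℕ) + 1) = (f ^ n * D ^ a) ^ ((ℓ : ℕ) + 1) := by rw [hG]
    calc G ^ ((ℓ : ℕ) + 1) * E ^ b = (G * D ^ b) ^ ((ℓ : ℕ) + 1) := by rw [hE]; ring
      _ = (f ^ n * D ^ a) ^ ((ℓ : ℕ) + 1) := h3'
      _ = f ^ (n * ((ℓ : ℕ) + 1)) * E ^ a := by rw [hE]; ring
  -- the Kummer generator of `T_ℓ x - (ℓ + 1) x`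
  set g : FF (q * M') := Tf * (f ^ ((ℓ : ℕ) + 1))⁻¹ with hg
  have hgK : IsKummerGen (q * M') (p ^ n₀) g
      (heckeOperatorBar (q * M') ℓ x - ((ℓ : ℕ) + 1) • x) := by
    have := (hTfK (p ^ n₀) x hf).mul ((hf.pow ((ℓ : ℕ) + 1)).inv)
    rwa [← sub_eq_add_neg] at this
  have hg0 : g ≠ 0 := hgK.1
  -- `g ^ n` is a constant times `TG / G ^ (ℓ + 1)`
  have h4 : Tf ^ n * C ^ a * G ^ ((ℓ : ℕ) + 1) = C ^ b * TG * f ^ (n * ((ℓ : ℕ) + 1)) := by
    have hEE : E ^ a * E ^ b ≠ 0 := mul_ne_zero (pow_ne_zero _ hE0) (pow_ne_zero _ hE0)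
    apply mul_right_cancel₀ hEE
    rw [mul_pow, mul_pow] at h2
    linear_combination (-(f ^ (n * ((ℓ : ℕ) + 1)) * E ^ a)) * h2 + (Tf ^ n * C ^ a * E ^ a) * h3
  have h5 : g ^ n = algebraMap Kbar (FF (q * M')) (c ^ b * (c ^ a)⁻¹) *
      (TG * (G ^ ((ℓ : ℕ) + 1))⁻¹) := by
    have hCa : C ^ a ≠ 0 := pow_ne_zero _ hC0
    have hGl : G ^ ((ℓ : ℕ) + 1) ≠ 0 := pow_ne_zero _ hG0
    have hfl : f ^ ((ℓ : ℕ) + 1) ≠ 0 := pow_ne_zero _ hf0
    have hcc : algebraMap Kbar (FF (q * M')) (c ^ b * (c ^ a)⁻¹) = C ^ b * (C ^ a)⁻¹ := by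
      rw [map_mul, map_inv₀, map_pow, map_pow]
    rw [hcc, hg, mul_pow, inv_pow, ← pow_mul, mul_comm ((ℓ : ℕ) + 1) n]
    have hfn : f ^ (n * ((ℓ : ℕ) + 1)) ≠ 0 := pow_ne_zero _ hf0
    field_simp
    linear_combination h4
  have hcb : c ^ b * (c ^ a)⁻¹ ≠ 0 :=
    mul_ne_zero (pow_ne_zero _ hc) (inv_ne_zero (pow_ne_zero _ hc))
  have hNGn : NodeGenQ (p ^ n₀) q M' A (g ^ n) := by
    rw [h5]
    exact ((hHN p n₀ q M' hp hn₀ hq hqp hqM A hA ℓ hℓNp G TG hTG hNG).mul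
      (hNG.pow _).inv).const_mul hcb
  have hNGg : NodeGenQ (p ^ n₀) q M' A g :=
    NodeGenQ.of_pow_coprime hRE hRU hRF hq hqM hA hn0 hn hg0 hNGn
  exact AddSubgroup.subset_closure
    ⟨g, hgK, hCP p n₀ q M' hp hn₀ hq hqp hqM A hA g _ hgK hNGg⟩

/-- **EIS-q for `p ^ n` from its leaves.** -/
theorem eisSlopeQPow_of (hCO : CoreOutQPowStatement) (hHF : HeckeFunStatement)
    (hHN : HeckeNodeGenQPowStatement) (hU : UnitEisStatement) (hCP : CuspPurityQPowStatement)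
    (hRE : RedExistsStatement) (hRU : RedUniqueStatement) (hRF : RedFieldStatement) :
    EisSlopeQPowStatement := by
  intro p n q M' _ _ _ hp hp5 hn hq hq2 hqp hqM A hA S a x hx hex hfix
  exact ⟨(q * M' * p).primeFactors,
    isEisModQ_of_slopePropQM hHF hHN hU hCP hRE hRU hRF p n q M' hp hn hq hqp hqM A hA x
      (hCO p n q M' hp hp5 hn hq hq2 hqp hqM A hA S a x hx hex hfix)⟩

/-! ## Glue: (Q4) for `p ^ n` -/

/-- Pure group theory: a `p ^ n`-torsion eigenclass with non-Eisenstein eigenvalues and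
Eisenstein slopes has slopes `0`. -/
theorem mem_finPartQ_pow_of_eis (p n q M' : ℕ) [NeZero (q * M')] (hp : p.Prime)
    (A : ValuationSubring Kbar) (S S' : Finset ℕ) (a : ℕ → ℤ) (hNE : NonEisAway p a)
    (x : JZero (q * M')) (hpx : (p ^ n) • x = 0) (heig : EigenAt (q * M') S a x)
    (hE : IsEisModQ (p ^ n) q M' A S' x) : x ∈ finPartQ (p ^ n) q M' A := by
  obtain ⟨ℓ, hℓ, hℓS, hndvd⟩ := hNE (S ∪ S')
  have hℓ1 : ℓ ∉ S := fun h => hℓS (Finset.mem_union_left _ h)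
  have hℓ2 : ℓ ∉ S' := fun h => hℓS (Finset.mem_union_right _ h)
  have h1 := hE ⟨ℓ, hℓ⟩ hℓ2
  rw [heig ⟨ℓ, hℓ⟩ hℓ1] at h1
  have h2 : (a ℓ - ((ℓ : ℤ) + 1)) • x ∈ finPartQ (p ^ n) q M' A := by
    have e : (a ℓ - ((ℓ : ℤ) + 1)) • x = a ℓ • x - ((ℓ : ℕ) + 1) • x := by
      have h3 : ((ℓ : ℤ) + 1) = (((ℓ : ℕ) + 1 : ℕ) : ℤ) := by push_cast; ring
      rw [sub_smul, h3, natCast_zsmul]
    rw [e]
    exact h1
  have hcop : IsCoprime (a ℓ - ((ℓ : ℤ) + 1)) ((p : ℤ) ^ n) := by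
    have hpp : Prime (p : ℤ) := Nat.prime_iff_prime_int.mp hp
    exact (IsCoprime.symm ((Prime.coprime_iff_not_dvd hpp).mpr hndvd)).pow_right
  obtain ⟨u, v, huv⟩ := hcop
  have hx : x = u • ((a ℓ - ((ℓ : ℤ) + 1)) • x) + v • (((p : ℤ) ^ n) • x) := by
    rw [smul_smul, smul_smul, ← add_zsmul, huv, one_zsmul]
  rw [hx]
  refine (finPartQ (p ^ n) q M' A).add_mem ((finPartQ (p ^ n) q M' A).zsmul_mem h2 u) ?_
  have : (((p : ℤ) ^ n) • x) = 0 := by
    have e : ((p : ℤ) ^ n) = (((p ^ n : ℕ)) : ℤ) := by push_cast; rfl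
    rw [e, natCast_zsmul]; exact hpx
  rw [this, smul_zero]
  exact (finPartQ (p ^ n) q M' A).zero_mem

/-- **(Q4) for `p ^ n`** from EIS-q for `p ^ n`. -/
theorem q4PowFor_of (hE : EisSlopeQPowStatement)
    (p n q M' : ℕ) [NeZero M'] [NeZero q] [NeZero (q * M')] (hp : p.Prime) (hp5 : 5 ≤ p)
    (hn : 0 < n) (hq : q.Prime) (hq2 : q ≠ 2) (hqp : q ≠ p) (hqM : ¬ q ∣ M')
    (A : ValuationSubring Kbar) (hA : A.LiesOverPrime q) :
    Q4PowFor p n q M' A (finPartQ (p ^ n) q M' A) := by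
  intro S a hNE x hx hex hfix
  obtain ⟨S', hS'⟩ := hE p n q M' hp hp5 hn hq hq2 hqp hqM A hA S a x hx hex hfix
  exact mem_finPartQ_pow_of_eis p n q M' hp A S S' a hNE x hx.1 hex hS'

/-! ## Glue: the leaves modulo `p` from the leaves modulo `p ^ n` -/

/-- (Q2) modulo `p` from (Q2) modulo `p ^ n`. -/
theorem q2_of_pow (h : Q2PowStatement) : Q2Statement := by
  intro p q M' _ _ _ hp hp5 hq hq2 hqp hqM A hA
  have := h p 1 q M' hp hp5 Nat.one_pos hq hq2 hqp hqM A hA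
  rwa [pow_one] at this

/-- EIS-q modulo `p` from EIS-q modulo `p ^ n`. -/
theorem eisSlopeQ_of_pow (h : EisSlopeQPowStatement) : EisSlopeQStatement := by
  intro p q M' _ _ _ hp hp5 hq hq2 hqp hqM A hA S a x hx hex hfix
  have := h p 1 q M' hp hp5 Nat.one_pos hq hq2 hqp hqM A hA S a x
    (by rwa [pow_one]) hex hfix
  rwa [pow_one] at this

/-- HECKE-NODE-q modulo `p` from the `p ^ n` form. -/
theorem heckeNodeGenQ_of_pow (h : HeckeNodeGenQPowStatement) : HeckeNodeGenQStatement := by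
  intro p q M' _ _ _ hp hq hqp hqM A hA ℓ _ hℓ f g hg hf
  have := h p 1 q M' hp Nat.one_pos hq hqp hqM A hA ℓ hℓ f g hg (by rwa [pow_one])
  rwa [pow_one] at this

/-- CUSP-q modulo `p` from the `p ^ n` form. -/
theorem cuspPurityQ_of_pow (h : CuspPurityQPowStatement) : CuspPurityQStatement := by
  intro p q M' _ _ _ hp hq hqp hqM A hA g y hg hN
  have := h p 1 q M' hp Nat.one_pos hq hqp hqM A hA g y (by rwa [pow_one]) (by rwa [pow_one])
  rwa [pow_one] at this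

/-- CORE-OUT-q modulo `p` from the `p ^ n` form. -/
theorem coreOutQ_of_pow (h : CoreOutQPowStatement) : CoreOutQStatement := by
  intro p q M' _ _ _ hp hp5 hq hq2 hqp hqM A hA S a x hx hex hfix
  obtain ⟨f, D, G, n, a', b, hf, hD, hD0, hn0, hn, hG, hNG⟩ :=
    h p 1 q M' hp hp5 Nat.one_pos hq hq2 hqp hqM A hA S a x (by rwa [pow_one]) hex hfix
  rw [pow_one] at hf hn hNG
  refine ⟨f, D, G, n, a', b, hf, hD, hD0, ?_, hG, hNG⟩
  intro hpn
  have h1 : p ∣ Nat.gcd n p := Nat.dvd_gcd hpn dvd_rfl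
  rw [Nat.Coprime] at hn
  rw [hn] at h1
  exact hp.one_lt.ne' (Nat.dvd_one.mp h1)

/-- **(Q3) from RED-MAP** (case `n = 1`): a new eigenclass in `𝓕 ∖ 𝒮` has nonzero image in
`J₀(M')²`, and a nonzero component is an eigenvector of level `M'`. -/
theorem q3For_of_redMapFor {p q M' : ℕ} [NeZero M'] [NeZero q] [NeZero (q * M')]
    {S₀ : Finset ℕ} {𝓕 𝒮 : AddSubgroup (JZero (q * M'))} {β : 𝓕 →+ JZero M' × JZero M'}
    (hβ : RedMapFor q M' S₀ 𝓕 𝒮 β) : Q3For p q M' 𝓕 𝒮 := by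
  intro S a x hx hxS hnew heig
  obtain ⟨hhecke, hker⟩ := hβ
  have hne : β ⟨x, hx⟩ ≠ 0 := fun h0 => hxS (hker ⟨x, hx⟩ h0)
  have hpβ : p • β ⟨x, hx⟩ = 0 := by
    rw [← map_nsmul]
    have : p • (⟨x, hx⟩ : 𝓕) = 0 := by
      apply Subtype.ext
      simpa using hnew.1
    rw [this, _root_.map_zero]
  have hTβ : ∀ ℓ : Nat.Primes, (ℓ : ℕ) ∉ S ∪ S₀ →
      (heckeOperatorBar M' ℓ (β ⟨x, hx⟩).1, heckeOperatorBar M' ℓ (β ⟨x, hx⟩).2)
        = a ℓ • β ⟨x, hx⟩ := by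
    intro ℓ hℓ
    rw [Finset.mem_union, not_or] at hℓ
    obtain ⟨hx', hβx⟩ := hhecke ℓ hℓ.2 ⟨x, hx⟩
    rw [← hβx, ← map_zsmul]
    congr 1
    apply Subtype.ext
    simpa using heig ℓ hℓ.1
  refine ⟨S ∪ S₀, Finset.subset_union_left, Or.inl ?_⟩
  by_cases h1 : (β ⟨x, hx⟩).1 = 0
  · have h2 : (β ⟨x, hx⟩).2 ≠ 0 := fun h2 => hne (Prod.ext h1 h2)
    refine ⟨(β ⟨x, hx⟩).2, h2, ?_, fun ℓ hℓ => ?_⟩
    · have := congrArg Prod.snd hpβ
      simpa using this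
    · have := congrArg Prod.snd (hTβ ℓ hℓ)
      simpa using this
  · refine ⟨(β ⟨x, hx⟩).1, h1, ?_, fun ℓ hℓ => ?_⟩
    · have := congrArg Prod.fst hpβ
      simpa using this
    · have := congrArg Prod.fst (hTβ ℓ hℓ)
      simpa using this

/-- (Q3) modulo `p` from RED-MAP. -/
theorem q3_of_redMap (h : RedMapStatement) : Q3Statement := by
  intro p q M' _ _ _ hp hp5 hq hq2 hqp hqM A hA
  obtain ⟨S₀, β, hβ⟩ := h p 1 q M' hp hp5 Nat.one_pos hq hq2 hqp hqM A hA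
  have h3 : Q3For p q M' (finPartQ (p ^ 1) q M' A) (splitPartQ (p ^ 1) q M' A) :=
    q3For_of_redMapFor hβ
  rwa [pow_one] at h3

/-- **The three targets modulo `p` from the leaves modulo `p ^ n`.** -/
theorem wallQTargets_of_pow (h2 : Q2PowStatement) (h3 : RedMapStatement)
    (hE : EisSlopeQPowStatement) : WallQTargetsStatement :=
  wallQTargets_of (q2_of_pow h2) (q3_of_redMap h3) (eisSlopeQ_of_pow hE)

end Fermat.Agent.Ribet.H158.WallQ

end
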