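import Fermat.Agent.Ribet.H158.WallQGood
import Fermat.Agent.Ribet.H943.Final
import Fermat.Agent.Ribet.H699.HeckeNodeGenQ
import Fermat.Agent.Ribet.H398.HeckeFun
import Fermat.Agent.Ribet.H67.UnitEis
import Fermat.Agent.Ribet.H997.RedField

/-!
# Row 37, WALL-q: Mazur's principle and S43 from the OPEN WALL-q leaves ALONE  (helper158)

Every input of the WALL-q chain except the open leaves is closed here from landed, unconditional
pieces: BLR `H823.embed`, Places `H584.places`, DETF `H704.detFrob`, DIM `H643.torsionRank`,
NE `H583.nonEisenstein583`, R3S `H404.eigenformOfOccursAway`, R3' `H943.Final.almostAllToWitness`;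
and for EIS-q: HECKE-FUN `H398.heckeFun`, HECKE-NODE-q `H699.heckeNodeGenQPow`,
UNIT-EIS `H67.unitEis`, RED `H997.redExists / redUnique / redField`.

    eisSlopeQGood_of_leaves       : CoreOutQGood → CuspPurityQGood → EisSlopeQGood
    wallQFrey_of_goodLeaves       : Q2Good → Q3Good → CoreOutQGood → CuspPurityQGood → OddVacuous
                                      → WallQFreyStatement
    mazurPrincipleOdd_of_goodLeaves : (the same five) → MazurPrincipleOddStatement
    S43_of_goodLeaves_hard        : (the same five) → H943.Row37.HardCaseStatement → S43Statement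
    mazurPrincipleOdd_of_targets  : WallQTargetsStatement → MazurPrincipleOddStatement
    mazurPrincipleOdd_of_leaves   : Q2 → Q3 → EisSlopeQ → MazurPrincipleOddStatement
-/

set_option autoImplicit false

namespace Fermat.Agent.Ribet.H158.WallQ

open Fermat.Agent.Ribet Fermat.Agent.Ribet.Spec

/-! ## All-levels forms -/

/-- The wall at `q` (Frey form) from the three targets alone. -/
theorem wallQFrey_of_wallQTargets (hT : WallQTargetsStatement) : WallQFreyStatement :=
  wallQFrey_of_targets H584.places H704.detFrob H643.torsionRank hT

/-- Mazur's principle at odd `q` from the wall at `q` alone. -/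
theorem mazurPrincipleOdd_of_wallQFrey (hW : WallQFreyStatement) : MazurPrincipleOddStatement :=
  mazurPrincipleOdd_of_wallQ H823.embed hW H583.nonEisenstein583 H404.eigenformOfOccursAway
    H943.Final.almostAllToWitness

/-- **Mazur's principle at odd `q` from the three targets alone.** -/
theorem mazurPrincipleOdd_of_targets (hT : WallQTargetsStatement) : MazurPrincipleOddStatement :=
  mazurPrincipleOdd_of_wallQFrey (wallQFrey_of_wallQTargets hT)

/-- **Mazur's principle at odd `q` from the three leaves of `WallQSlope.lean`.** -/
theorem mazurPrincipleOdd_of_leaves (h2 : Q2Statement) (h3 : Q3Statement)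
    (hE : EisSlopeQStatement) : MazurPrincipleOddStatement :=
  mazurPrincipleOdd_of_targets (wallQTargets_of h2 h3 hE)

/-- **S43 from the three leaves and the hard case.** -/
theorem S43_of_leaves_hard (h2 : Q2Statement) (h3 : Q3Statement) (hE : EisSlopeQStatement)
    (hH : H943.Row37.HardCaseStatement) : S43Statement :=
  S43_of_mpOdd_hard (mazurPrincipleOdd_of_leaves h2 h3 hE) hH

/-! ## Good-level forms (the official chain) -/

/-- **EIS-q at good levels from CORE-OUT-q and CUSP-q alone.** -/
theorem eisSlopeQGood_of_leaves (hCO : CoreOutQGoodStatement)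
    (hCP : CuspPurityQGoodStatement) : EisSlopeQGoodStatement :=
  eisSlopeQGood_of hCO H398.heckeFun H699.heckeNodeGenQPow H67.unitEis hCP
    H997.redExists H997.redUnique H997.redField

/-- The wall at `q` at good levels from the four open leaves. -/
theorem wallQFreyGood_of_leaves (h2 : Q2GoodStatement) (h3 : Q3GoodStatement)
    (hCO : CoreOutQGoodStatement) (hCP : CuspPurityQGoodStatement) : WallQFreyGoodStatement :=
  wallQFreyGood_of_targets H584.places H704.detFrob H643.torsionRank
    (wallQTargetsGood_of h2 h3 (eisSlopeQGood_of_leaves hCO hCP))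

/-- **The wall at `q` (all levels) from the four open leaves and ODD-VACUOUS.** -/
theorem wallQFrey_of_goodLeaves (h2 : Q2GoodStatement) (h3 : Q3GoodStatement)
    (hCO : CoreOutQGoodStatement) (hCP : CuspPurityQGoodStatement)
    (hOdd : OddVacuousStatement) : WallQFreyStatement :=
  wallQFrey_of_good (wallQFreyGood_of_leaves h2 h3 hCO hCP) hOdd

/-- **Mazur's principle at odd `q` from the four open leaves and ODD-VACUOUS.** -/
theorem mazurPrincipleOdd_of_goodLeaves (h2 : Q2GoodStatement) (h3 : Q3GoodStatement)
    (hCO : CoreOutQGoodStatement) (hCP : CuspPurityQGoodStatement)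
    (hOdd : OddVacuousStatement) : MazurPrincipleOddStatement :=
  mazurPrincipleOdd_of_wallQFrey (wallQFrey_of_goodLeaves h2 h3 hCO hCP hOdd)

/-- **S43 from the four open WALL-q leaves, ODD-VACUOUS and the hard case.** -/
theorem S43_of_goodLeaves_hard (h2 : Q2GoodStatement) (h3 : Q3GoodStatement)
    (hCO : CoreOutQGoodStatement) (hCP : CuspPurityQGoodStatement)
    (hOdd : OddVacuousStatement) (hH : H943.Row37.HardCaseStatement) : S43Statement :=
  S43_of_mpOdd_hard (mazurPrincipleOdd_of_goodLeaves h2 h3 hCO hCP hOdd) hH

end Fermat.Agent.Ribet.H158.WallQ
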