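import Fermat.Agent.Ribet.H158.WallQGood
import Fermat.Agent.Ribet.H723.WallQPlus

/-!
# Row 37, WALL-q: the SHARP wall (helper723) from the targets at GOOD LEVELS  (helper158)

`H723.WallQFreyPlusStatement` (exclusion `p ∤ q - 1` OR some Frobenius at `q` is not scalar on
`E[p]`) from `WallQTargetsGoodStatement` + `OddVacuousStatement`; hence

    S43 ⇐ row inputs + WallQTargetsGood + OddVacuous + H723.HardScalarStatement.

Core = `H723.lowered_of_targetsQ_plus` (instance level), run at a place of the good level; the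
levels `q = 3`, `M'` odd are excluded by ODD-VACUOUS.
-/

set_option autoImplicit false
set_option linter.style.haveILetI false

open WeierstrassCurve WeierstrassCurve.Affine WeierstrassCurve.Affine.Point

namespace Fermat.Agent.Ribet.H158.WallQ

open Fermat.Agent.Ribet Fermat.Agent.Ribet.Spec Fermat.Agent.Ribet.H944.Wall

/-- For an odd prime `q`: the level `M'` is good for `q`, or `q M'` is odd. -/
theorem good_or_odd {q M' : ℕ} (hq : q.Prime) (hq2 : q ≠ 2) :
    (5 ≤ q ∨ (q = 3 ∧ 2 ∣ M')) ∨ ¬ 2 ∣ q * M' := by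
  by_cases h2 : 2 ∣ M'
  · left
    by_cases h5 : 5 ≤ q
    · exact Or.inl h5
    · right
      refine ⟨?_, h2⟩
      have h2q := hq.two_le
      have h4 : q ≠ 4 := by
        rintro rfl
        exact absurd hq (by decide)
      omega
  · right
    intro h
    rcases (Nat.Prime.dvd_mul Nat.prime_two).mp h with h' | h'
    · exact hq2 ((Nat.prime_dvd_prime_iff_eq Nat.prime_two hq).mp h').symm
    · exact h2 h'

/-- **The sharp wall at `q` from the targets at good levels and ODD-VACUOUS.** -/
theorem wallQFreyPlus_of_goodTargets (hPl : PlacesStatement) (hDet : DetFrobStatement)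
    (hDim : TorsionRankStatement) (hT : WallQTargetsGoodStatement)
    (hOdd : OddVacuousStatement) : H723.WallQFreyPlusStatement := by
  intro P M' q _ _ hq hq2 hqp hqM' hirr hunr hq1 S a hNE hemb
  haveI : NeZero q := ⟨hq.ne_zero⟩
  rcases good_or_odd (M' := M') hq hq2 with hgood | hodd
  · have hH : WallQHyp P.p 1 q M' := ⟨P.pp, P.hp5, Nat.one_pos, hq, hq2, hqp, hqM', hgood⟩
    rcases hq1 with hq1 | hns
    · obtain ⟨A, hA, φ, hφ⟩ := hPl q hq
      obtain ⟨𝓕, 𝒮, h2, h3, h4⟩ := hT P.p q M' hH A hA
      exact H723.lowered_of_targetsQ_plus P hq hqp hirr (hDim P) hφ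
        (hDet P q hq hqp A hA φ hφ) (fun σ hσ x => hunr A hA σ hσ x) (Or.inl hq1) h2 h3 h4
        hNE hemb
    · obtain ⟨A, hA, φ, hφ, hφns⟩ := (H723.not_frobScalarAt_iff P q).1 hns
      obtain ⟨𝓕, 𝒮, h2, h3, h4⟩ := hT P.p q M' hH A hA
      exact H723.lowered_of_targetsQ_plus P hq hqp hirr (hDim P) hφ
        (hDet P q hq hqp A hA φ hφ) (fun σ hσ x => hunr A hA σ hσ x) (Or.inr hφns) h2 h3 h4
        hNE hemb
  · exact absurd hemb (hOdd P (q * M') hodd S a)

/-- **S43 from the targets at good levels, ODD-VACUOUS, the row inputs and the SCALAR hard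
case.** -/
theorem S43_of_goodTargets_hardScalar (hE : EmbedStatement) (hPl : PlacesStatement)
    (hDet : DetFrobStatement) (hDim : TorsionRankStatement) (hNE : NonEisensteinStatement)
    (hR3 : EigenformOfOccursAwayStatement) (hR3' : AlmostAllToWitnessStatement)
    (hT : WallQTargetsGoodStatement) (hOdd : OddVacuousStatement)
    (hH : H723.HardScalarStatement) : S43Statement :=
  H723.S43_of_mpOddPlus_hardScalar
    (H723.mazurPrincipleOddPlus_of_wallQ hE
      (wallQFreyPlus_of_goodTargets hPl hDet hDim hT hOdd) hNE hR3 hR3')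
    hH

end Fermat.Agent.Ribet.H158.WallQ
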