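import Fermat.Agent.Ribet.H158.WallQClosed
import Fermat.Agent.Ribet.H158.WallQPlusGood

/-!
# Row 37: S43 from the OPEN WALL-q leaves, ODD-VACUOUS and the SCALAR hard case  (helper158)

    S43_of_goodLeaves_hardScalar :
      Q2Good → Q3Good → CoreOutQGood → CuspPurityQGood → OddVacuous → H723.HardScalarStatement
        → S43Statement

All other inputs are discharged from main (see `WallQClosed.lean`).  `H723.HardScalarStatement` is
the hard case restricted to `p ∣ q - 1` AND every Frobenius at `q` scalar on `E[p]`.
-/

set_option autoImplicit false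

namespace Fermat.Agent.Ribet.H158.WallQ

open Fermat.Agent.Ribet Fermat.Agent.Ribet.Spec

/-- The targets at good levels from the four open leaves. -/
theorem wallQTargetsGood_of_leaves (h2 : Q2GoodStatement) (h3 : Q3GoodStatement)
    (hCO : CoreOutQGoodStatement) (hCP : CuspPurityQGoodStatement) :
    WallQTargetsGoodStatement :=
  wallQTargetsGood_of h2 h3 (eisSlopeQGood_of_leaves hCO hCP)

/-- **The sharp wall at `q` from the four open leaves and ODD-VACUOUS.** -/
theorem wallQFreyPlus_of_goodLeaves (h2 : Q2GoodStatement) (h3 : Q3GoodStatement)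
    (hCO : CoreOutQGoodStatement) (hCP : CuspPurityQGoodStatement)
    (hOdd : OddVacuousStatement) : H723.WallQFreyPlusStatement :=
  wallQFreyPlus_of_goodTargets H584.places H704.detFrob H643.torsionRank
    (wallQTargetsGood_of_leaves h2 h3 hCO hCP) hOdd

/-- **S43 from the four open WALL-q leaves, ODD-VACUOUS and the SCALAR hard case.** -/
theorem S43_of_goodLeaves_hardScalar (h2 : Q2GoodStatement) (h3 : Q3GoodStatement)
    (hCO : CoreOutQGoodStatement) (hCP : CuspPurityQGoodStatement)
    (hOdd : OddVacuousStatement) (hH : H723.HardScalarStatement) : S43Statement :=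
  S43_of_goodTargets_hardScalar H823.embed H584.places H704.detFrob H643.torsionRank
    H583.nonEisenstein583 H404.eigenformOfOccursAway H943.Final.almostAllToWitness
    (wallQTargetsGood_of_leaves h2 h3 hCO hCP) hOdd hH

end Fermat.Agent.Ribet.H158.WallQ
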