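import Fermat.Agent.Ribet.H158.WallQSlope
import Fermat.Agent.Ribet.H884.EisSpec

/-!
# Row 37, WALL-q: **EIS-q** (tame case of (Q4)) — frozen leaves + PROVED glue
  (wall architect helper158; two-prime mirror of `H884/EisSpec.lean`)

Target: `EisSlopeQStatement` (`WallQSlope.lean`).  `N = q·M'`, torsion prime `p ≠ q`, `A` over `q`.
The slopes of an `I`-fixed class `x` are proportional to the slopes of the modular unit
`u_q = Δ(t^q)/Δ(t)` (TAME node relation: the Kummer generator is rational over an unramified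
extension, so at every node `e·slope = d` with `d = v₀ - v_∞` and `e ∈ {1,2,3}` the thickness),
and `u_q` is an Eisenstein eigenfunction; hence `T_ℓ x - (ℓ+1) x` has slopes `0`.

## Vocabulary (level `q M'`, divisibility by `p`)
* `NodeGenQ p q M' A f`   : both reductions of `f ∈ FF (q M')` are `H884.PDivFin p M'`;
* `H884.IsModUnit q M' D` : `D ∈ FF (q M')` has `t`-expansion `S28.unitL ℚ̄ q` (REUSED verbatim);
* `SlopePropQ p q M' A x` : `x` has a Kummer generator `f` with `NodeGenQ (f^n · D^a / D^b)`,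
                            `p ∤ n`.

## Leaves
| leaf | Prop | content |
|---|---|---|
| CORE-OUT-q  | `CoreOutQStatement`      | `x` new eigen, `I`-fixed ⇒ `SlopePropQ x` (tame node relation; `p ∤ 6`) |
| HECKE-NODE-q| `HeckeNodeGenQStatement` | `NodeGenQ f ⇒ NodeGenQ (kronNorm ℓ f)`, `ℓ ∤ q M' p` |
| CUSP-q      | `CuspPurityQStatement`   | Kummer generator + `NodeGenQ` ⇒ `FinGenQ` (purity at the cusps) |
| REUSED      | `H884.HeckeFunStatement`, `H884.UnitEisStatement`, `H884.RedExistsStatement`, `H884.RedUniqueStatement`, `H884.RedFieldStatement` | generic in the level / used at the prime `q` |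

## Proved here
* calculus of `NodeGenQ`; `isEisModQ_of_slopePropQ`; **`eisSlopeQ_of`** :
  `CoreOutQ → HeckeFun → HeckeNodeGenQ → UnitEis → CuspPurityQ → RedExists → RedUnique → RedField
     → EisSlopeQStatement`.
-/

set_option autoImplicit false
set_option synthInstance.maxHeartbeats 400000
set_option maxHeartbeats 1000000
set_option linter.unusedSectionVars false

noncomputable section

namespace Fermat.Agent.Ribet.H158.WallQ

open AlgebraicCurve ModularCurve HahnSeries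
open Fermat.Agent.S24 Fermat.Agent.A2.H708 Fermat.Agent.A2.H528 Fermat.Agent.A2.H129
open Fermat.Agent.Ribet.Spec Fermat.Agent.Ribet.H944.Wall Fermat.Agent.Ribet.H884
open Fermat.Agent.S37.H400

/-! ## Vocabulary -/

/-- Both reductions of `f` have `p`-divisible orders away from the cusps. -/
def NodeGenQ (p q M' : ℕ) [NeZero (q * M')] (A : ValuationSubring Kbar) (f : FF (q * M')) :
    Prop :=
  ∃ r₁ r₂ : LaurentSeries (kA A), IsRedInf (q * M') A f r₁ ∧ IsRedZero (q * M') A f r₂ ∧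
    PDivFin p M' r₁ ∧ PDivFin p M' r₂

/-- The slope vector of `x` is a multiple of the slope vector of the modular unit
`Δ(t^q)/Δ(t)`. -/
def SlopePropQ (p q M' : ℕ) [NeZero q] [NeZero (q * M')] (A : ValuationSubring Kbar)
    (x : JZero (q * M')) : Prop :=
  ∃ (f D G : FF (q * M')) (n a b : ℕ), IsKummerGen (q * M') p f x ∧ IsModUnit q M' D ∧
    D ≠ 0 ∧ ¬ p ∣ n ∧ G * D ^ b = f ^ n * D ^ a ∧ NodeGenQ p q M' A G

/-! ## Leaves -/

/-- **CORE-OUT-q** (tame node relation): the slopes of a new eigenclass fixed by inertia at `A`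
are proportional to the slopes of the modular unit. -/
def CoreOutQStatement : Prop :=
  ∀ (p q M' : ℕ) [NeZero M'] [NeZero q] [NeZero (q * M')], p.Prime → 5 ≤ p → q.Prime →
    q ≠ 2 → q ≠ p → ¬ q ∣ M' →
    ∀ A : ValuationSubring Kbar, A.LiesOverPrime q →
    ∀ (S : Finset ℕ) (a : ℕ → ℤ) (x : JZero (q * M')),
      IsNewTorsQ p q M' x → EigenAt (q * M') S a x →
      (∀ σ ∈ A.inertiaSubgroupIn ℚ, σ • x = x) →
      SlopePropQ p q M' A x

/-- **HECKE-NODE-q**: `NodeGenQ` is stable under the function-level Hecke operator. -/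
def HeckeNodeGenQStatement : Prop :=
  ∀ (p q M' : ℕ) [NeZero M'] [NeZero q] [NeZero (q * M')], p.Prime → q.Prime → q ≠ p →
    ¬ q ∣ M' →
    ∀ A : ValuationSubring Kbar, A.LiesOverPrime q →
    ∀ (ℓ : Nat.Primes) [NeZero (ℓ : ℕ)], ¬ (ℓ : ℕ) ∣ q * M' * p →
    ∀ f g : FF (q * M'),
      (g : LaurentSeries Kbar) = kronNorm (ℓ : ℕ) (f : LaurentSeries Kbar) →
      NodeGenQ p q M' A f → NodeGenQ p q M' A g

/-- **CUSP-q** (purity at the cusps): a Kummer generator whose reductions have `p`-divisible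
orders away from the cusps has slopes `0`. -/
def CuspPurityQStatement : Prop :=
  ∀ (p q M' : ℕ) [NeZero M'] [NeZero q] [NeZero (q * M')], p.Prime → q.Prime → q ≠ p →
    ¬ q ∣ M' →
    ∀ A : ValuationSubring Kbar, A.LiesOverPrime q →
    ∀ (g : FF (q * M')) (y : JZero (q * M')), IsKummerGen (q * M') p g y →
      NodeGenQ p q M' A g → FinGenQ p q M' A g

/-! ## Calculus -/

section NodeGenQCalc

variable {p q M' : ℕ} [NeZero q] [NeZero (q * M')] {A : ValuationSubring Kbar}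

theorem NodeGenQ.ne_zero {f : FF (q * M')} (h : NodeGenQ p q M' A f) : f ≠ 0 := by
  obtain ⟨r₁, r₂, h1, -, -, -⟩ := h
  intro h0
  exact h1.fun_ne_zero (by rw [h0]; rfl)

theorem NodeGenQ.mul {f f' : FF (q * M')} (h : NodeGenQ p q M' A f)
    (h' : NodeGenQ p q M' A f') : NodeGenQ p q M' A (f * f') := by
  obtain ⟨r₁, r₂, h1, h2, h3, h4⟩ := h
  obtain ⟨r₁', r₂', h1', h2', h3', h4'⟩ := h'
  exact ⟨r₁ * r₁', r₂ * r₂', h1.mul h1', h2.mul h2', h3.mul h3', h4.mul h4'⟩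

theorem NodeGenQ.inv {f : FF (q * M')} (h : NodeGenQ p q M' A f) :
    NodeGenQ p q M' A f⁻¹ := by
  obtain ⟨r₁, r₂, h1, h2, h3, h4⟩ := h
  exact ⟨r₁⁻¹, r₂⁻¹, h1.inv, h2.inv, h3.inv, h4.inv⟩

theorem NodeGenQ.pow {f : FF (q * M')} (h : NodeGenQ p q M' A f) (m : ℕ) :
    NodeGenQ p q M' A (f ^ m) := by
  obtain ⟨r₁, r₂, h1, h2, h3, h4⟩ := h
  exact ⟨r₁ ^ m, r₂ ^ m, h1.pow m, h2.pow m, h3.pow m, h4.pow m⟩

theorem NodeGenQ.const_mul {f : FF (q * M')} (h : NodeGenQ p q M' A f) {c : Kbar}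
    (hc : c ≠ 0) : NodeGenQ p q M' A (algebraMap Kbar (FF (q * M')) c * f) := by
  obtain ⟨r₁, r₂, h1, h2, h3, h4⟩ := h
  exact ⟨r₁, r₂, h1.const_mul hc, h2.const_mul hc, h3, h4⟩

/-- Extraction of `n`-th roots, `p ∤ n` (needs the RED leaves at `q`). -/
theorem NodeGenQ.of_pow (hRE : RedExistsStatement) (hRU : RedUniqueStatement)
    (hRF : RedFieldStatement) [NeZero M'] (hp : p.Prime) (hq : q.Prime) (hqM : ¬ q ∣ M')
    (hA : A.LiesOverPrime q) {n : ℕ} (hn : ¬ p ∣ n) {g : FF (q * M')} (hg : g ≠ 0)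
    (h : NodeGenQ p q M' A (g ^ n)) : NodeGenQ p q M' A g := by
  obtain ⟨s₁, s₂, h1, h2, h3, h4⟩ := h
  obtain ⟨⟨r₁, hr₁⟩, ⟨r₂, hr₂⟩⟩ := hRE q (q * M') hq A hA g hg
  obtain ⟨-, c₁, -, hc₁⟩ := hRU q (q * M') hq A hA (g ^ n) (r₁ ^ n) s₁ (hr₁.pow n) h1
  have hr₂' : IsRedInf (q * M') A (wF (q * M') (g ^ n)) (r₂ ^ n) := IsRedZero.pow hr₂ n
  obtain ⟨-, c₂, -, hc₂⟩ := hRU q (q * M') hq A hA (wF (q * M') (g ^ n)) (r₂ ^ n) s₂ hr₂' h2
  exact ⟨r₁, r₂, hr₁, hr₂,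
    PDivFin.of_pow hp hn (hRF q M' hq hqM A hA g r₁ (Or.inl hr₁)) c₁ hc₁ h3,
    PDivFin.of_pow hp hn (hRF q M' hq hqM A hA g r₂ (Or.inr hr₂)) c₂ hc₂ h4⟩

end NodeGenQCalc

/-! ## Glue -/

/-- **EIS-q core**: proportional slopes ⇒ Eisenstein slopes. -/
theorem isEisModQ_of_slopePropQ (hHF : HeckeFunStatement) (hHN : HeckeNodeGenQStatement)
    (hU : UnitEisStatement) (hCP : CuspPurityQStatement) (hRE : RedExistsStatement)
    (hRU : RedUniqueStatement) (hRF : RedFieldStatement)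
    (p q M' : ℕ) [NeZero M'] [NeZero q] [NeZero (q * M')] (hp : p.Prime) (hq : q.Prime)
    (hqp : q ≠ p) (hqM : ¬ q ∣ M')
    (A : ValuationSubring Kbar) (hA : A.LiesOverPrime q) (x : JZero (q * M'))
    (hx : SlopePropQ p q M' A x) : IsEisModQ p q M' A (q * M' * p).primeFactors x := by
  intro ℓ hℓ
  have : NeZero (ℓ : ℕ) := ⟨ℓ.2.ne_zero⟩
  have hNp0 : q * M' * p ≠ 0 := mul_ne_zero (NeZero.ne _) hp.ne_zero
  have hℓNp : ¬ (ℓ : ℕ) ∣ q * M' * p := fun h =>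
    hℓ (Nat.mem_primeFactors.mpr ⟨ℓ.2, h, hNp0⟩)
  have hℓN : ¬ (ℓ : ℕ) ∣ q * M' := fun h => hℓNp (dvd_mul_of_dvd_left h p)
  have hℓq : (ℓ : ℕ) ≠ q := fun h => hℓN (h ▸ dvd_mul_right _ _)
  obtain ⟨f, D, G, n, a, b, hf, hD, hD0, hn, hG, hNG⟩ := hx
  obtain ⟨Tf, hTf, hTfK⟩ := hHF (q * M') ℓ hℓN f
  obtain ⟨TG, hTG, -⟩ := hHF (q * M') ℓ hℓN G
  obtain ⟨c, hc, hUD⟩ := hU q ℓ hq hℓq
  have hf0 : f ≠ 0 := hf.1
  have hG0 : G ≠ 0 := hNG.ne_zero
  -- notation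
  set C : FF (q * M') := algebraMap Kbar (FF (q * M')) c with hC
  have hC0 : C ≠ 0 := by simpa [hC] using hc
  set E : FF (q * M') := D ^ ((ℓ : ℕ) + 1) with hE
  have hE0 : E ≠ 0 := pow_ne_zero _ hD0
  -- the Hecke transform of the relation `G * D ^ b = f ^ n * D ^ a`
  have h2 : TG * (C * E) ^ b = Tf ^ n * (C * E) ^ a := by
    apply Subtype.ext
    have e1 : ((C * E : FF (q * M')) : LaurentSeries Kbar) =
        kronNorm (ℓ : ℕ) (D : LaurentSeries Kbar) := by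
      have hD' : (D : LaurentSeries Kbar) = Fermat.Agent.S28.unitL Kbar q := hD
      have hCE : ((C * E : FF (q * M')) : LaurentSeries Kbar) =
          cst c * (D : LaurentSeries Kbar) ^ ((ℓ : ℕ) + 1) := rfl
      rw [hCE, hD', hUD]
    have e2 : ((TG * (C * E) ^ b : FF (q * M')) : LaurentSeries Kbar) =
        kronNorm (ℓ : ℕ) ((G * D ^ b : FF (q * M')) : LaurentSeries Kbar) := by
      have : ((G * D ^ b : FF (q * M')) : LaurentSeries Kbar) =
          (G : LaurentSeries Kbar) * (D : LaurentSeries Kbar) ^ b := rfl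
      rw [this, kronNorm_mul, kronNorm_pow, ← hTG, ← e1]
      rfl
    have e3 : ((Tf ^ n * (C * E) ^ a : FF (q * M')) : LaurentSeries Kbar) =
        kronNorm (ℓ : ℕ) ((f ^ n * D ^ a : FF (q * M')) : LaurentSeries Kbar) := by
      have : ((f ^ n * D ^ a : FF (q * M')) : LaurentSeries Kbar) =
          (f : LaurentSeries Kbar) ^ n * (D : LaurentSeries Kbar) ^ a := rfl
      rw [this, kronNorm_mul, kronNorm_pow, kronNorm_pow, ← hTf, ← e1]
      rfl
    rw [e2, e3, hG]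
  -- the `(ℓ+1)`-st power of the relation
  have h3 : G ^ ((ℓ : ℕ) + 1) * E ^ b = f ^ (n * ((ℓ : ℕ) + 1)) * E ^ a := by
    have h3' : (G * D ^ b) ^ ((ℓ : ℕ) + 1) = (f ^ n * D ^ a) ^ ((ℓ : ℕ) + 1) := by rw [hG]
    calc G ^ ((ℓ : ℕ) + 1) * E ^ b = (G * D ^ b) ^ ((ℓ : ℕ) + 1) := by rw [hE]; ring
      _ = (f ^ n * D ^ a) ^ ((ℓ : ℕ) + 1) := h3'
      _ = f ^ (n * ((ℓ : ℕ) + 1)) * E ^ a := by rw [hE]; ring
  -- the Kummer generator of `T_ℓ x - (ℓ + 1) x`
  set g : FF (q * M') := Tf * (f ^ ((ℓ : ℕ) + 1))⁻¹ with hg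
  have hgK : IsKummerGen (q * M') p g
      (heckeOperatorBar (q * M') ℓ x - ((ℓ : ℕ) + 1) • x) := by
    have := (hTfK p x hf).mul ((hf.pow ((ℓ : ℕ) + 1)).inv)
    rwa [← sub_eq_add_neg] at this
  have hg0 : g ≠ 0 := hgK.1
  -- `g ^ n` is a constant times `TG / G ^ (ℓ + 1)`
  have h4 : Tf ^ n * C ^ a * G ^ ((ℓ : ℕ) + 1) = C ^ b * TG * f ^ (n * ((ℓ : ℕ) + 1)) := by
    have hEE : E ^ a * E ^ b ≠ 0 := mul_ne_zero (pow_ne_zero _ hE0) (pow_ne_zero _ hE0)
    apply mul_right_cancel₀ hEE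
    rw [mul_pow, mul_pow] at h2
    linear_combination (-(f ^ (n * ((ℓ : ℕ) + 1)) * E ^ a)) * h2 + (Tf ^ n * C ^ a * E ^ a) * h3
  have h5 : g ^ n = algebraMap Kbar (FF (q * M')) (c ^ b * (c ^ a)⁻¹) *
      (TG * (G ^ ((ℓ : ℕ) + 1))⁻¹) := by
    have hCa : C ^ a ≠ 0 := pow_ne_zero _ hC0
    have hGl : G ^ ((ℓ : ℕ) + 1) ≠ 0 := pow_ne_zero _ hG0
    have hfl : f ^ ((ℓ : ℕ) + 1) ≠ 0 := pow_ne_zero _ hf0
    have hcc : algebraMap Kbar (FF (q * M')) (c ^ b * (c ^ a)⁻¹) = C ^ b * (C ^ a)⁻¹ := by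
      rw [map_mul, map_inv₀, map_pow, map_pow]
    rw [hcc, hg, mul_pow, inv_pow, ← pow_mul, mul_comm ((ℓ : ℕ) + 1) n]
    have hfn : f ^ (n * ((ℓ : ℕ) + 1)) ≠ 0 := pow_ne_zero _ hf0
    field_simp
    linear_combination h4
  have hcb : c ^ b * (c ^ a)⁻¹ ≠ 0 :=
    mul_ne_zero (pow_ne_zero _ hc) (inv_ne_zero (pow_ne_zero _ hc))
  have hNGn : NodeGenQ p q M' A (g ^ n) := by
    rw [h5]
    exact ((hHN p q M' hp hq hqp hqM A hA ℓ hℓNp G TG hTG hNG).mul
      (hNG.pow _).inv).const_mul hcb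
  have hNGg : NodeGenQ p q M' A g := NodeGenQ.of_pow hRE hRU hRF hp hq hqM hA hn hg0 hNGn
  exact AddSubgroup.subset_closure ⟨g, hgK, hCP p q M' hp hq hqp hqM A hA g _ hgK hNGg⟩

/-- **EIS-q from its leaves.** -/
theorem eisSlopeQ_of (hCO : CoreOutQStatement) (hHF : HeckeFunStatement)
    (hHN : HeckeNodeGenQStatement) (hU : UnitEisStatement) (hCP : CuspPurityQStatement)
    (hRE : RedExistsStatement) (hRU : RedUniqueStatement) (hRF : RedFieldStatement) :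
    EisSlopeQStatement := by
  intro p q M' _ _ _ hp hp5 hq hq2 hqp hqM A hA S a x hx hex hfix
  exact ⟨(q * M' * p).primeFactors,
    isEisModQ_of_slopePropQ hHF hHN hU hCP hRE hRU hRF p q M' hp hq hqp hqM A hA x
      (hCO p q M' hp hp5 hq hq2 hqp hqM A hA S a x hx hex hfix)⟩

end Fermat.Agent.Ribet.H158.WallQ

end
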