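import Fermat.Agent.Ribet.H801.Deg
import Fermat.Agent.Ribet.H943.AtQ
import Fermat.Agent.Ribet.H943.Row37

/-!
# Row 37, WALL-q (Mazur's principle at `q ≠ p`): frozen targets + PROVED glue
  (wall architect helper158; mirror of `H944/WallSpec.lean` + `H944/WallTargets.lean`)

`N = q·M'`, `q ∤ M'`, `p ≠ q` (`p ∣ M'` IS allowed), `J = JZero (q * M')`, `A` a valuation ring of
`ℚ̄` over `q`, `I = A.inertiaSubgroupIn ℚ`, `φ` any Frobenius at `A` (`A.IsFrobeniusAt φ q`).
Degeneracy pair: `(α_*, β_*) = (H801.alphaL q M', H801.betaL q M')` (generic in the prime, on main).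

## The three targets (for two subgroups `𝒮 ≤ 𝓕` of `J`, chosen by the owner of SLOPE-q)
Think of `𝓕` = finite part of `J[p]` at `A` (classes extending to the identity component;
"slopes 0"), `𝒮` = toric part (both reductions trivial).
* `Q4For p q M' A 𝓕`   **TAME**: a new, non-Eisenstein, `I`-fixed eigenclass lies in `𝓕`
                        (component group is Eisenstein; tame node relation, `p ∤ 12`).
* `Q3For p q M' 𝓕 𝒮`   **RED**: a new eigenclass in `𝓕 ∖ 𝒮` has its eigensystem at level `M'`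
                        (its reduction is a nonzero eigenclass of `Pic⁰(X₀(M')_{𝔽̄_q})[p]`;
                        `p`-torsion lifts to characteristic `0`: S18 injectivity + count).
* `Q2For p q M' A 𝒮`   **FROB-AL**: there is an additive `u : J → J` commuting with `G_ℚ`, involutive
                        on the new part of `𝒮`, with `φ x = q • u x` there (`u = -w_q`: Frobenius
                        acts on the character group `H₁(dual graph)` as `-w_q`, on `μ_p` as `q`).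

## Proved here
* `lowered_of_targetsQ`   : the core (any embedding, any place);
* `wallQFrey_of_targets`  : Places + DetFrob + TorsionRank + targets ⇒ `WallQFreyStatement`;
* `mazurPrincipleOdd_of_wallQ` : BLR + WALL-q + NE + R3S + R3' ⇒ Mazur's principle for odd `q`;
* `S43_of_mpOdd_hard`     : Mazur's principle (odd `q`) + `H943.Row37.HardCaseStatement` ⇒ S43.

The glue in the split case: all of `ι(E[p])` is new and in `𝒮`, so `u` induces an involution `U`
of `E[p]` commuting with `G_ℚ`, and `φ = q·U`; irreducibility gives `U = ±1`, so `det φ = q²`;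
but `det φ = q` (DETF); hence `q ≡ 1 mod p`.
-/

set_option autoImplicit false
set_option linter.style.haveILetI false

open WeierstrassCurve WeierstrassCurve.Affine WeierstrassCurve.Affine.Point
open CuspForm ModularFormClass UpperHalfPlane ModularCurve

namespace Fermat.Agent.Ribet.H158.WallQ

open Fermat.Agent.Ribet Fermat.Agent.Ribet.Spec Fermat.Agent.Ribet.H944.Wall
open Fermat.Agent.Ribet.H801

/-! ## Targets -/

section Targets

variable (p q M' : ℕ) [NeZero M'] [NeZero q] [NeZero (q * M')]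

/-- `x` is a `q`-new `p`-torsion class of `J₀(qM')`: `p x = 0`, `α_* x = 0`, `β_* x = 0`. -/
def IsNewTorsQ (x : JZero (q * M')) : Prop :=
  p • x = 0 ∧ alphaL q M' x = 0 ∧ betaL q M' x = 0

/-- **(Q2) FROB-AL**: on the new part of `𝒮` every Frobenius at `A` acts as `q·u`, where `u` is an
additive endomorphism of `J₀(qM')` commuting with `G_ℚ` and involutive on the new part of `𝒮`. -/
def Q2For (A : ValuationSubring (AlgebraicClosure ℚ)) (𝒮 : AddSubgroup (JZero (q * M'))) :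
    Prop :=
  ∃ u : JZero (q * M') →+ JZero (q * M'),
    (∀ (σ : GQ) (x : JZero (q * M')), u (σ • x) = σ • u x) ∧
    (∀ x ∈ 𝒮, IsNewTorsQ p q M' x → u (u x) = x) ∧
    ∀ φ : GQ, A.IsFrobeniusAt φ q → ∀ x ∈ 𝒮, IsNewTorsQ p q M' x → φ • x = q • u x

/-- **(Q3) RED**: a new Hecke-eigenclass in `𝓕 ∖ 𝒮` has its eigensystem at level `M'`. -/
def Q3For (𝓕 𝒮 : AddSubgroup (JZero (q * M'))) : Prop :=
  ∀ (S : Finset ℕ) (a : ℕ → ℤ), ∀ x ∈ 𝓕, x ∉ 𝒮 → IsNewTorsQ p q M' x →
    EigenAt (q * M') S a x → Lowered M' p S a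

/-- **(Q4) TAME**: a new, non-Eisenstein eigenclass fixed by inertia at `A` lies in `𝓕`. -/
def Q4For (A : ValuationSubring (AlgebraicClosure ℚ)) (𝓕 : AddSubgroup (JZero (q * M'))) :
    Prop :=
  ∀ (S : Finset ℕ) (a : ℕ → ℤ), NonEisAway p a → ∀ x : JZero (q * M'),
    IsNewTorsQ p q M' x → EigenAt (q * M') S a x →
    (∀ σ ∈ A.inertiaSubgroupIn ℚ, σ • x = x) → x ∈ 𝓕

end Targets

/-- **The three targets**, for `p ≥ 5` and odd `q ≠ p`, `q ∤ M'` (`p ∣ M'` allowed). -/
def WallQTargetsStatement : Prop :=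
  ∀ (p q M' : ℕ) [NeZero M'] [NeZero q] [NeZero (q * M')], p.Prime → 5 ≤ p → q.Prime →
    q ≠ 2 → q ≠ p → ¬ q ∣ M' →
    ∀ A : ValuationSubring (AlgebraicClosure ℚ), A.LiesOverPrime q →
      ∃ 𝓕 𝒮 : AddSubgroup (JZero (q * M')),
        Q2For p q M' A 𝒮 ∧ Q3For p q M' 𝓕 𝒮 ∧ Q4For p q M' A 𝓕

/-- The wall at `q` (Frey form, odd `q`), conclusion `Lowered`, non-Eisenstein eigensystem. -/
def WallQFreyStatement : Prop :=
  ∀ (P : FreyPackage) (M' q : ℕ) [NeZero M'] [NeZero (q * M')], q.Prime → q ≠ 2 → q ≠ P.p →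
    ¬ q ∣ M' →
    GaloisRepIsIrreducible (K := AlgebraicClosure ℚ) ℚ P.freyCurve P.p →
    P.GaloisRepUnramifiedAt q → ¬ P.p ∣ q - 1 →
    ∀ (S : Finset ℕ) (a : ℕ → ℤ), NonEisAway P.p a → FreyEmbedsIn P (q * M') S a →
      Lowered M' P.p S a

/-- Mazur's principle at odd `q ≠ p` (`Spec.MazurPrincipleStatement` with `q ≠ 2`; enough for
S43). -/
def MazurPrincipleOddStatement : Prop :=
  ∀ (P : FreyPackage) {L q : ℕ}, 0 < L → q.Prime → q ≠ 2 → q ≠ P.p → q ∣ L → ¬ q ^ 2 ∣ L →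
    GaloisRepIsIrreducible (K := AlgebraicClosure ℚ) ℚ P.freyCurve P.p →
    P.ModularRepOfLevel L → P.GaloisRepUnramifiedAt q → ¬ P.p ∣ q - 1 →
    P.ModularRepOfLevel (L / q)

/-! ## Glue -/

section Core

variable {q M' : ℕ} [NeZero M'] [NeZero q] [NeZero (q * M')]

/-- **Core of the wall at `q`**: from the three targets at a place `A` with a Frobenius `φ`. -/
theorem lowered_of_targetsQ (P : FreyPackage) (hq : q.Prime) (hqp : q ≠ P.p)
    (hirr : GaloisRepIsIrreducible (K := AlgebraicClosure ℚ) ℚ P.freyCurve P.p)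
    (hdim : Module.finrank (ZMod P.p) (FreyTorsion P) = 2)
    {A : ValuationSubring (AlgebraicClosure ℚ)} {φ : GQ} (hφ : A.IsFrobeniusAt φ q)
    (hdet : LinearMap.det
      (galoisRepModuleEnd (S := ℚ) (K := AlgebraicClosure ℚ) P.freyCurve P.p φ) = (q : ZMod P.p))
    (hfixE : ∀ σ ∈ A.inertiaSubgroupIn ℚ, ∀ x : FreyTorsion P, σ • x = x)
    (hq1 : ¬ P.p ∣ q - 1)
    {𝓕 𝒮 : AddSubgroup (JZero (q * M'))}
    (h2 : Q2For P.p q M' A 𝒮) (h3 : Q3For P.p q M' 𝓕 𝒮) (h4 : Q4For P.p q M' A 𝓕)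
    {S : Finset ℕ} {a : ℕ → ℤ} (hNE : NonEisAway P.p a)
    (hemb : FreyEmbedsIn P (q * M') S a) : Lowered M' P.p S a := by
  haveI : Fact P.p.Prime := ⟨P.pp⟩
  obtain ⟨ι, hinj, hgal, hT⟩ := hemb
  have hp_tors : ∀ x, P.p • ι x = 0 := fun x => by
    rw [← map_nsmul, freyTorsion_nsmul, _root_.map_zero]
  have hfix : ∀ σ ∈ A.inertiaSubgroupIn ℚ, ∀ x, σ • ι x = ι x := fun σ hσ x => by
    rw [← hgal]
    exact congrArg ι (hfixE σ hσ x)
  have hdeg := isDegPair_alphaL_betaL q M' hq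
  -- (W0) not new: the eigensystem occurs at level `M'` through `α_*` or `β_*`
  by_cases h : ∃ x, alphaL q M' (ι x) ≠ 0 ∨ betaL q M' (ι x) ≠ 0
  · refine ⟨S ∪ {q}, Finset.subset_union_left, Or.inl ?_⟩
    obtain ⟨x, hx | hx⟩ := h
    · refine ⟨alphaL q M' (ι x), hx, ?_, fun ℓ hℓ => ?_⟩
      · rw [← map_nsmul, hp_tors, _root_.map_zero]
      · rw [Finset.mem_union, not_or] at hℓ
        rw [← hdeg.hecke_left ℓ hℓ.2, hT ℓ hℓ.1, map_zsmul]
    · refine ⟨betaL q M' (ι x), hx, ?_, fun ℓ hℓ => ?_⟩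
      · rw [← map_nsmul, hp_tors, _root_.map_zero]
      · rw [Finset.mem_union, not_or] at hℓ
        rw [← hdeg.hecke_right ℓ hℓ.2, hT ℓ hℓ.1, map_zsmul]
  have hnew : ∀ x, IsNewTorsQ P.p q M' (ι x) := by
    intro x
    refine ⟨hp_tors x, ?_, ?_⟩
    · by_contra hx
      exact h ⟨x, Or.inl hx⟩
    · by_contra hx
      exact h ⟨x, Or.inr hx⟩
  have heig : ∀ x, EigenAt (q * M') S a (ι x) := fun x ℓ hℓ => hT ℓ hℓ x
  -- (Q4) the image lies in the finite part
  have hF : ∀ x, ι x ∈ 𝓕 := fun x =>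
    h4 S a hNE (ι x) (hnew x) (heig x) (fun σ hσ => hfix σ hσ x)
  -- (Q3) if the image is not in the split part we are done
  by_cases hS : ∃ x, ι x ∉ 𝒮
  · obtain ⟨x, hx⟩ := hS
    exact h3 S a (ι x) (hF x) hx (hnew x) (heig x)
  -- (Q2) otherwise Frobenius is `q·(±1)` on `E[p]`: contradiction with `det = q`
  exfalso
  have hι𝒮 : ∀ x, ι x ∈ 𝒮 := by
    intro x
    by_contra hx
    exact hS ⟨x, hx⟩
  obtain ⟨u, huG, huu, hφu⟩ := h2
  have hcopq : IsCoprime (q : ℤ) (P.p : ℤ) := by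
    rw [isCoprime_comm]
    refine (Nat.prime_iff_prime_int.mp P.pp).coprime_iff_not_dvd.2 ?_
    intro h'
    have h'' : P.p ∣ q := by exact_mod_cast h'
    exact hqp ((Nat.prime_dvd_prime_iff_eq P.pp hq).1 h'').symm
  obtain ⟨d, e, hde⟩ := hcopq
  have hu : ∀ x, u (ι x) = ι (d • (φ • x)) := by
    intro x
    have h1 : φ • ι x = q • u (ι x) := hφu φ hφ (ι x) (hι𝒮 x) (hnew x)
    have h2' : P.p • u (ι x) = 0 := by rw [← map_nsmul, hp_tors, _root_.map_zero]
    calc u (ι x) = d • (q • u (ι x)) := (bezout_zsmul_nsmul _ P.p q d e hde h2').symm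
      _ = d • (φ • ι x) := by rw [h1]
      _ = ι (d • (φ • x)) := by rw [map_zsmul, hgal]
  -- the involution on `E[p]`
  let U : FreyTorsion P →ₗ[ZMod P.p] FreyTorsion P :=
    (d : ZMod P.p) • galoisRepModuleEnd (S := ℚ) (K := AlgebraicClosure ℚ) P.freyCurve P.p φ
  have hUdef : ∀ x, U x = d • (φ • x) := fun x => by
    show (d : ZMod P.p) • (φ • x) = d • (φ • x)
    exact Int.cast_smul_eq_zsmul (ZMod P.p) d (φ • x)
  have hιU : ∀ x, ι (U x) = u (ι x) := fun x => by rw [hUdef, hu]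
  have hUG : ∀ (σ : GQ) (x : FreyTorsion P), U (σ • x) = σ • U x := fun σ x => by
    apply hinj
    rw [hιU, hgal, huG, hgal, hιU]
  have hUU : ∀ x, U (U x) = x := fun x => by
    apply hinj
    rw [hιU, hιU, huu _ (hι𝒮 x) (hnew x)]
  have hφU : ∀ x : FreyTorsion P, φ • x = (q : ZMod P.p) • U x := fun x => by
    rw [hUdef, Nat.cast_smul_eq_nsmul]
    have h3' : d • (q • (φ • x)) = φ • x :=
      bezout_zsmul_nsmul _ P.p q d e hde (freyTorsion_nsmul P _)
    rw [smul_comm] at h3'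
    exact h3'.symm
  have hdet' := det_eq_sq_of_involution P hirr hdim U hUG hUU φ (q : ZMod P.p) hφU
  rw [hdet] at hdet'
  -- `q = q²` in `𝔽_p` forces `p ∣ q - 1`
  have hq0 : (q : ZMod P.p) ≠ 0 := by
    intro h'
    rw [ZMod.natCast_eq_zero_iff] at h'
    exact hqp ((Nat.prime_dvd_prime_iff_eq P.pp hq).1 h').symm
  have hq1' : (q : ZMod P.p) = 1 := by
    have : (q : ZMod P.p) * ((q : ZMod P.p) - 1) = 0 := by
      rw [mul_sub, mul_one, ← pow_two, ← hdet', sub_self]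
    rcases mul_eq_zero.1 this with h' | h'
    · exact absurd h' hq0
    · exact sub_eq_zero.1 h'
  apply hq1
  have : ((q - 1 : ℕ) : ZMod P.p) = 0 := by
    rw [Nat.cast_sub hq.one_le, hq1']
    simp
  exact (ZMod.natCast_eq_zero_iff _ _).1 this

end Core

/-- **WALL-q from the three targets**: Places + DETF + DIM + targets ⇒ wall (Frey form). -/
theorem wallQFrey_of_targets (hPl : PlacesStatement) (hDet : DetFrobStatement)
    (hDim : TorsionRankStatement) (hT : WallQTargetsStatement) : WallQFreyStatement := by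
  intro P M' q _ _ hq hq2 hqp hqM' hirr hunr hq1 S a hNE hemb
  haveI : NeZero q := ⟨hq.ne_zero⟩
  obtain ⟨A, hA, φ, hφ⟩ := hPl q hq
  obtain ⟨𝓕, 𝒮, h2, h3, h4⟩ := hT P.p q M' P.pp P.hp5 hq hq2 hqp hqM' A hA
  exact lowered_of_targetsQ P hq hqp hirr (hDim P) hφ (hDet P q hq hqp A hA φ hφ)
    (fun σ hσ x => hunr A hA σ hσ x) hq1 h2 h3 h4 hNE hemb

/-- **Mazur's principle (odd `q`) from the wall at `q` in `Lowered` form**:
`BLR + WALL-q + NE + R3S + R3' ⇒ MPq`. -/
theorem mazurPrincipleOdd_of_wallQ (hE : EmbedStatement) (hWall : WallQFreyStatement)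
    (hNE : NonEisensteinStatement) (hR3 : EigenformOfOccursAwayStatement)
    (hR3' : AlmostAllToWitnessStatement) : MazurPrincipleOddStatement := by
  intro P L q hLpos hq hq2 hqp hqL hsq hirr hmod hunr hq1
  obtain ⟨M', rfl⟩ := hqL
  have hM'pos : 0 < M' := by
    rcases Nat.eq_zero_or_pos M' with h0 | h0
    · subst h0; simp at hLpos
    · exact h0
  rw [Nat.mul_div_cancel_left M' hq.pos]
  have hqM' : ¬ q ∣ M' := by
    rintro ⟨k, rfl⟩
    exact hsq ⟨k, by ring⟩
  haveI : NeZero M' := ⟨hM'pos.ne'⟩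
  haveI : NeZero (q * M') := ⟨hLpos.ne'⟩
  obtain ⟨f, W, 𝔪, hwit⟩ := hmod
  have hwit' : P.IsCongruentWitness (q * M') f W 𝔪 := hwit
  obtain ⟨S, hemb⟩ := hE P (q * M') hirr f W 𝔪 hwit'
  have hNE' : NonEisAway P.p (fun ℓ => W.apOfModel ℓ) := by
    intro S₁
    obtain ⟨ℓ, hℓ, hℓS, -, hne⟩ := hNE P W hwit.2.1 hirr S₁
    exact ⟨ℓ, hℓ, hℓS, hne⟩
  obtain ⟨S', g, 𝔪', hg, hmax, hp, hc⟩ :=
    eigenAway_of_lowered hR3 P.pp (hWall P M' q hq hq2 hqp hqM' hirr hunr hq1 S _ hNE' hemb)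
  exact ⟨g, W, 𝔪', hR3' P M' hM'pos g W 𝔪' _ hg hwit.2.1 hmax hp hc⟩

/-- **S43 from Mazur's principle at odd `q` and the hard case.** -/
theorem S43_of_mpOdd_hard (hMP : MazurPrincipleOddStatement)
    (hH : H943.Row37.HardCaseStatement) : S43Statement := by
  intro P N q hcond hq hq2 hqp hqN hirr hmod hunr
  have hsq : ¬ q ^ 2 ∣ N := hcond.sq_not_dvd hq
  refine ⟨N / q, Nat.div_dvd_of_dvd hqN, not_dvd_div_of_sq_not_dvd hq hqN hsq, ?_⟩
  by_cases h1 : P.p ∣ q - 1
  · exact hH P hcond.pos hq hqp hqN hsq hirr hmod hunr h1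
  · exact hMP P hcond.pos hq hq2 hqp hqN hsq hirr hmod hunr h1

/-- **S43 from the three targets, the row inputs and the hard case.** -/
theorem S43_of_targetsQ (hE : EmbedStatement) (hPl : PlacesStatement) (hDet : DetFrobStatement)
    (hDim : TorsionRankStatement) (hNE : NonEisensteinStatement)
    (hR3 : EigenformOfOccursAwayStatement) (hR3' : AlmostAllToWitnessStatement)
    (hT : WallQTargetsStatement) (hH : H943.Row37.HardCaseStatement) : S43Statement :=
  S43_of_mpOdd_hard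
    (mazurPrincipleOdd_of_wallQ hE (wallQFrey_of_targets hPl hDet hDim hT) hNE hR3 hR3') hH

end Fermat.Agent.Ribet.H158.WallQ
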